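import Fermat.Agent.Horocycle.Quaternion

/-!
# The maximal order of discriminant `6`

`ℤ + ℤ i + ℤ j + ℤ (1 + i + j + i j) / 2` in the quaternion algebra `(-1, 3)` over `ℚ`, as a ring
of real matrices.  It is Euclidean for the absolute value of the determinant, so left ideals are
principal and greatest common right divisors exist.
-/

set_option autoImplicit false
set_option linter.unusedSectionVars false
set_option linter.style.haveILetI false

noncomputable section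

open Matrix Set
open FA.Horocycle

namespace FA.QuaternionHecke

/-- The matrix of the quaternion with real coordinates. -/
def realQuat (A B C D : ℝ) : Matrix (Fin 2) (Fin 2) ℝ :=
  !![A + C * Real.sqrt 3, B + D * Real.sqrt 3; -B + D * Real.sqrt 3, A - C * Real.sqrt 3]

theorem det_realQuat (A B C D : ℝ) :
    (realQuat A B C D).det = A ^ 2 + B ^ 2 - 3 * C ^ 2 - 3 * D ^ 2 := by
  have h := Real.mul_self_sqrt (show (0 : ℝ) ≤ 3 by norm_num)
  simp only [realQuat, det_fin_two_of]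
  linear_combination (-C ^ 2 - D ^ 2) * h

theorem adjugate_realQuat (A B C D : ℝ) :
    adjugate (realQuat A B C D) = realQuat A (-B) (-C) (-D) := by
  rw [adjugate_fin_two]
  ext i j
  fin_cases i <;> fin_cases j <;> simp [realQuat] <;> ring

theorem realQuat_mul (A B C D A' B' C' D' : ℝ) :
    realQuat A B C D * realQuat A' B' C' D' =
      realQuat (A * A' - B * B' + 3 * C * C' + 3 * D * D')
        (A * B' + B * A' + 3 * C * D' - 3 * D * C') (A * C' + C * A' + B * D' - D * B')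
        (A * D' + D * A' + C * B' - B * C') := by
  have h := Real.mul_self_sqrt (show (0 : ℝ) ≤ 3 by norm_num)
  ext i j
  fin_cases i <;> fin_cases j <;> simp [realQuat, Matrix.mul_apply, Fin.sum_univ_two]
  · linear_combination (C * C' + D * D') * h
  · linear_combination (C * D' - D * C') * h
  · linear_combination (-(C * D') + D * C') * h
  · linear_combination (C * C' + D * D') * h

theorem realQuat_add (A B C D A' B' C' D' : ℝ) :
    realQuat A B C D + realQuat A' B' C' D' = realQuat (A + A') (B + B') (C + C') (D + D') := by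
  ext i j
  fin_cases i <;> fin_cases j <;> simp [realQuat] <;> ring

theorem smul_realQuat (t A B C D : ℝ) :
    t • realQuat A B C D = realQuat (t * A) (t * B) (t * C) (t * D) := by
  ext i j
  fin_cases i <;> fin_cases j <;> simp [realQuat] <;> ring

/-- The matrix of `a + b i + c j + e (1 + i + j + i j) / 2`. -/
def hurMat (q : Quad) : Matrix (Fin 2) (Fin 2) ℝ :=
  realQuat (q.1 + q.2.2.2 / 2) (q.2.1 + q.2.2.2 / 2) (q.2.2.1 + q.2.2.2 / 2) (q.2.2.2 / 2)

/-- The product in these coordinates. -/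
def hurMul (p q : Quad) : Quad :=
  (p.1 * q.1 - p.2.1 * q.2.1 + p.2.1 * q.2.2.1 - p.2.2.1 * q.2.1 + 3 * (p.2.2.1 * q.2.2.1) +
      p.2.2.1 * q.2.2.2 - p.2.2.2 * q.2.1 + 2 * (p.2.2.2 * q.2.2.1) + p.2.2.2 * q.2.2.2,
    p.1 * q.2.1 + p.2.1 * q.1 + p.2.1 * q.2.2.1 + p.2.1 * q.2.2.2 - p.2.2.1 * q.2.1 +
      p.2.2.1 * q.2.2.2 - p.2.2.2 * q.2.2.1,
    p.1 * q.2.2.1 + p.2.1 * q.2.2.1 + p.2.1 * q.2.2.2 + p.2.2.1 * q.1 - p.2.2.1 * q.2.1 -
      p.2.2.2 * q.2.1 + p.2.2.2 * q.2.2.1,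
    p.1 * q.2.2.2 - 2 * (p.2.1 * q.2.2.1) - p.2.1 * q.2.2.2 + 2 * (p.2.2.1 * q.2.1) +
      p.2.2.1 * q.2.2.2 + p.2.2.2 * q.1 + p.2.2.2 * q.2.1 - p.2.2.2 * q.2.2.1 +
      p.2.2.2 * q.2.2.2)

theorem hurMat_mul (p q : Quad) : hurMat p * hurMat q = hurMat (hurMul p q) := by
  simp only [hurMat, realQuat_mul, hurMul]
  push_cast
  congr 1 <;> ring

/-- The conjugate. -/
def hurConj (q : Quad) : Quad := (q.1 + q.2.2.2, -q.2.1, -q.2.2.1, -q.2.2.2)

theorem adjugate_hurMat (q : Quad) : adjugate (hurMat q) = hurMat (hurConj q) := by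
  simp only [hurMat, adjugate_realQuat, hurConj]
  push_cast
  congr 1 <;> ring

theorem hurMat_add (p q : Quad) : hurMat (p + q) = hurMat p + hurMat q := by
  simp only [hurMat, realQuat_add, Prod.fst_add, Prod.snd_add]
  push_cast
  congr 1 <;> ring

/-- The reduced norm. -/
def hurNorm (q : Quad) : ℤ :=
  q.1 ^ 2 + q.1 * q.2.2.2 + q.2.1 ^ 2 + q.2.1 * q.2.2.2 - 3 * q.2.2.1 ^ 2 -
    3 * (q.2.2.1 * q.2.2.2) - q.2.2.2 ^ 2

theorem det_hurMat (q : Quad) : (hurMat q).det = hurNorm q := by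
  simp only [hurMat, det_realQuat, hurNorm]
  push_cast
  ring

theorem hurMat_injective : Function.Injective hurMat := by
  intro p q h
  have hs : Real.sqrt 3 ≠ 0 := by positivity
  have e00 := congrFun (congrFun h 0) 0
  have e01 := congrFun (congrFun h 0) 1
  have e10 := congrFun (congrFun h 1) 0
  have e11 := congrFun (congrFun h 1) 1
  simp [hurMat, realQuat] at e00 e01 e10 e11
  have h4 : (p.2.2.2 : ℝ) = q.2.2.2 := mul_right_cancel₀ hs (by linarith)
  have h1 : (p.1 : ℝ) = q.1 := by linarith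
  have h2 : (p.2.1 : ℝ) = q.2.1 := by linarith
  have h3 : (p.2.2.1 : ℝ) = q.2.2.1 := mul_right_cancel₀ hs (by rw [h4] at e00; linarith)
  exact Prod.ext (by exact_mod_cast h1) (Prod.ext (by exact_mod_cast h2)
    (Prod.ext (by exact_mod_cast h3) (by exact_mod_cast h4)))

theorem hurMat_one : hurMat (1, 0, 0, 0) = 1 := by
  ext i j
  fin_cases i <;> fin_cases j <;> simp [hurMat, realQuat]

theorem hurMat_zero : hurMat 0 = 0 := by
  ext i j
  fin_cases i <;> fin_cases j <;> simp [hurMat, realQuat]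

/-- **The order.** -/
def order : Subring (Matrix (Fin 2) (Fin 2) ℝ) where
  carrier := range hurMat
  mul_mem' := by
    rintro _ _ ⟨p, rfl⟩ ⟨q, rfl⟩
    exact ⟨hurMul p q, (hurMat_mul p q).symm⟩
  one_mem' := ⟨_, hurMat_one⟩
  add_mem' := by
    rintro _ _ ⟨p, rfl⟩ ⟨q, rfl⟩
    exact ⟨p + q, hurMat_add p q⟩
  zero_mem' := ⟨0, hurMat_zero⟩
  neg_mem' := by
    rintro _ ⟨p, rfl⟩
    exact ⟨-p, eq_neg_of_add_eq_zero_left (by rw [← hurMat_add, neg_add_cancel, hurMat_zero])⟩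

theorem mem_order {M : Matrix (Fin 2) (Fin 2) ℝ} : M ∈ order ↔ ∃ q, hurMat q = M := Iff.rfl

theorem adjugate_mem {M : Matrix (Fin 2) (Fin 2) ℝ} (h : M ∈ order) : adjugate M ∈ order := by
  obtain ⟨q, rfl⟩ := h
  exact ⟨_, (adjugate_hurMat q).symm⟩

theorem intCast_smul_mem {M : Matrix (Fin 2) (Fin 2) ℝ} (h : M ∈ order) (n : ℤ) :
    (n : ℝ) • M ∈ order := by
  rw [Int.cast_smul_eq_zsmul]
  exact zsmul_mem h n

theorem exists_det {M : Matrix (Fin 2) (Fin 2) ℝ} (h : M ∈ order) : ∃ N : ℤ, M.det = N := by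
  obtain ⟨q, rfl⟩ := h
  exact ⟨_, det_hurMat q⟩

/-- The norm, as an integer. -/
def nrd (M : Matrix (Fin 2) (Fin 2) ℝ) : ℤ := round M.det

theorem coe_nrd {M : Matrix (Fin 2) (Fin 2) ℝ} (h : M ∈ order) : (nrd M : ℝ) = M.det := by
  obtain ⟨N, hN⟩ := exists_det h
  rw [nrd, hN, round_intCast]

theorem eq_zero_of_det {M : Matrix (Fin 2) (Fin 2) ℝ} (h : M ∈ order) (h0 : M.det = 0) :
    M = 0 := by
  obtain ⟨q, rfl⟩ := h
  rw [det_hurMat, Int.cast_eq_zero, hurNorm] at h0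
  have e := eq_zero_of_quadNorm
    (q := (2 * q.1 + q.2.2.2, 2 * q.2.1 + q.2.2.2, 2 * q.2.2.1 + q.2.2.2, q.2.2.2))
    (by simp only [quadNorm]; linear_combination 4 * h0)
  simp [Prod.ext_iff] at e
  rw [show q = 0 from Prod.ext (by simp; omega) (Prod.ext (by simp; omega)
    (Prod.ext (by simp; omega) (by simp; omega)))]
  exact hurMat_zero

theorem mul_right_cancel_det {M N g : Matrix (Fin 2) (Fin 2) ℝ} (hg : g.det ≠ 0)
    (h : M * g = N * g) : M = N := by
  have e := congrArg (· * adjugate g) h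
  simp only [Matrix.mul_assoc, Matrix.mul_adjugate, Matrix.mul_smul, Matrix.mul_one] at e
  exact (smul_right_injective _ hg) e

theorem exists_corner (x : ℝ) :
    ∃ t : ℤ, (x - ((t : ℝ) - 1 / 2)) ^ 2 = x ^ 2 - |x| + 1 / 4 := by
  rcases le_or_gt 0 x with h | h
  · exact ⟨1, by rw [abs_of_nonneg h]; push_cast; ring⟩
  · exact ⟨0, by rw [abs_of_neg h]; push_cast; ring⟩

/-- **Every real quaternion is within norm less than one of the order.** -/
theorem exists_near (A B C D : ℝ) :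
    ∃ q : Quad, |(realQuat A B C D - hurMat q).det| < 1 := by
  have hsub : ∀ q : Quad, (realQuat A B C D - hurMat q).det =
      (A - (q.1 + q.2.2.2 / 2)) ^ 2 + (B - (q.2.1 + q.2.2.2 / 2)) ^ 2 -
        3 * (C - (q.2.2.1 + q.2.2.2 / 2)) ^ 2 - 3 * (D - q.2.2.2 / 2) ^ 2 := fun q => by
    rw [sub_eq_iff_eq_add.2 (show realQuat A B C D = realQuat (A - (q.1 + q.2.2.2 / 2))
      (B - (q.2.1 + q.2.2.2 / 2)) (C - (q.2.2.1 + q.2.2.2 / 2)) (D - q.2.2.2 / 2) + hurMat q by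
        rw [hurMat, realQuat_add]; simp only [sub_add_cancel]), det_realQuat]
  set a := A - round A with ha
  set b := B - round B with hb
  set c := C - round C with hc
  set d := D - round D with hd
  have hA : |a| ≤ 1 / 2 := abs_sub_round A
  have hB : |b| ≤ 1 / 2 := abs_sub_round B
  have hC : |c| ≤ 1 / 2 := abs_sub_round C
  have hD : |d| ≤ 1 / 2 := abs_sub_round D
  have hsq : ∀ u : ℝ, |u| ≤ 1 / 2 → u ^ 2 ≤ |u| / 2 := fun u hu => by
    rw [← sq_abs]
    nlinarith [abs_nonneg u]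
  by_cases h : -1 < a ^ 2 + b ^ 2 - 3 * c ^ 2 - 3 * d ^ 2
  · refine ⟨(round A - round D, round B - round D, round C - round D, 2 * round D), ?_⟩
    rw [hsub]
    push_cast
    rw [show A - ((round A : ℝ) - round D + 2 * round D / 2) = a by rw [ha]; ring,
      show B - ((round B : ℝ) - round D + 2 * round D / 2) = b by rw [hb]; ring,
      show C - ((round C : ℝ) - round D + 2 * round D / 2) = c by rw [hc]; ring,
      show D - 2 * (round D : ℝ) / 2 = d by rw [hd]; ring, abs_lt]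
    refine ⟨h, ?_⟩
    nlinarith [hsq a hA, hsq b hB, sq_nonneg c, sq_nonneg d]
  · push Not at h
    obtain ⟨ta, hta⟩ := exists_corner a
    obtain ⟨tb, htb⟩ := exists_corner b
    obtain ⟨tc, htc⟩ := exists_corner c
    obtain ⟨td, htd⟩ := exists_corner d
    refine ⟨(round A + ta - round D - td, round B + tb - round D - td,
      round C + tc - round D - td, 2 * round D + 2 * td - 1), ?_⟩
    rw [hsub]
    push_cast
    rw [show A - ((round A : ℝ) + ta - round D - td + (2 * round D + 2 * td - 1) / 2) =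
          a - ((ta : ℝ) - 1 / 2) by rw [ha]; ring,
      show B - ((round B : ℝ) + tb - round D - td + (2 * round D + 2 * td - 1) / 2) =
          b - ((tb : ℝ) - 1 / 2) by rw [hb]; ring,
      show C - ((round C : ℝ) + tc - round D - td + (2 * round D + 2 * td - 1) / 2) =
          c - ((tc : ℝ) - 1 / 2) by rw [hc]; ring,
      show D - (2 * (round D : ℝ) + 2 * td - 1) / 2 = d - ((td : ℝ) - 1 / 2) by rw [hd]; ring,
      hta, htb, htc, htd, abs_lt]
    constructor <;> nlinarith [hsq a hA, hsq b hB, hsq c hC, hsq d hD, abs_nonneg a, abs_nonneg b,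
      abs_nonneg c, abs_nonneg d, sq_nonneg a, sq_nonneg b, sq_nonneg c, sq_nonneg d]

/-- **The order is norm-Euclidean.** -/
theorem euclidean {x y : Matrix (Fin 2) (Fin 2) ℝ} (hx : x ∈ order) (hy : y ∈ order)
    (hy0 : y.det ≠ 0) : ∃ q ∈ order, |(x - q * y).det| < |y.det| := by
  obtain ⟨r, hr⟩ := mem_order.1 (mul_mem hx (adjugate_mem hy))
  obtain ⟨q, hq⟩ := exists_near ((r.1 + r.2.2.2 / 2) / y.det) ((r.2.1 + r.2.2.2 / 2) / y.det)
    ((r.2.2.1 + r.2.2.2 / 2) / y.det) (r.2.2.2 / 2 / y.det)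
  refine ⟨hurMat q, ⟨q, rfl⟩, ?_⟩
  have e : (x - hurMat q * y) * adjugate y = y.det • (realQuat ((r.1 + r.2.2.2 / 2) / y.det)
      ((r.2.1 + r.2.2.2 / 2) / y.det) ((r.2.2.1 + r.2.2.2 / 2) / y.det)
      (r.2.2.2 / 2 / y.det) - hurMat q) := by
    rw [Matrix.sub_mul, Matrix.mul_assoc, Matrix.mul_adjugate, Matrix.mul_smul, Matrix.mul_one,
      ← hr, smul_sub, smul_realQuat]
    simp only [mul_div_cancel₀ _ hy0]
    rfl
  have e2 := congrArg Matrix.det e
  rw [det_mul, det_adjugate, det_smul, Fintype.card_fin] at e2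
  simp only [show 2 - 1 = 1 from rfl, pow_one] at e2
  rw [show (x - hurMat q * y).det = y.det * (realQuat ((r.1 + r.2.2.2 / 2) / y.det)
      ((r.2.1 + r.2.2.2 / 2) / y.det) ((r.2.2.1 + r.2.2.2 / 2) / y.det)
      (r.2.2.2 / 2 / y.det) - hurMat q).det from mul_right_cancel₀ hy0 (by rw [e2]; ring), abs_mul]
  exact mul_lt_of_lt_one_right (abs_pos.2 hy0) hq

/-- **Left ideals are principal.** -/
theorem exists_generator (I : AddSubgroup (Matrix (Fin 2) (Fin 2) ℝ))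
    (hI : ∀ x ∈ I, x ∈ order) (hmul : ∀ a ∈ order, ∀ x ∈ I, a * x ∈ I) :
    ∃ g ∈ I, ∀ x ∈ I, ∃ q ∈ order, x = q * g := by
  by_cases h : ∀ x ∈ I, x = 0
  · exact ⟨0, I.zero_mem, fun x hx => ⟨0, zero_mem _, by rw [h x hx, mul_zero]⟩⟩
  push Not at h
  have hex : ∃ n : ℕ, ∃ g ∈ I, g ≠ 0 ∧ (nrd g).natAbs = n := by
    obtain ⟨x, hx, hx0⟩ := h
    exact ⟨_, x, hx, hx0, rfl⟩
  classical
  obtain ⟨g, hg, hg0, hgn⟩ := Nat.find_spec hex
  have hdet : g.det ≠ 0 := fun h0 => hg0 (eq_zero_of_det (hI g hg) h0)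
  refine ⟨g, hg, fun x hx => ?_⟩
  obtain ⟨q, hq, hlt⟩ := euclidean (hI x hx) (hI g hg) hdet
  refine ⟨q, hq, sub_eq_zero.1 ?_⟩
  by_contra hne
  have hmem : x - q * g ∈ I := sub_mem hx (hmul q hq g hg)
  have hle := Nat.find_min' hex ⟨_, hmem, hne, rfl⟩
  rw [← hgn] at hle
  rw [← coe_nrd (hI _ hmem), ← coe_nrd (hI g hg)] at hlt
  have : |nrd (x - q * g)| < |nrd g| := by exact_mod_cast hlt
  rw [Int.abs_eq_natAbs, Int.abs_eq_natAbs] at this
  omega

theorem det_add_smul (X Y : Matrix (Fin 2) (Fin 2) ℝ) (t : ℝ) :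
    (X + t • Y).det = X.det + t * (X * adjugate Y).trace + t ^ 2 * Y.det := by
  simp [det_fin_two, adjugate_fin_two, trace_fin_two, Matrix.mul_apply, Fin.sum_univ_two]
  ring

theorem exists_trace {M : Matrix (Fin 2) (Fin 2) ℝ} (h : M ∈ order) :
    ∃ N : ℤ, M.trace = N := by
  obtain ⟨q, rfl⟩ := h
  exact ⟨2 * q.1 + q.2.2.2, by simp [hurMat, realQuat, trace_fin_two]; ring⟩

/-- A unit of norm `-1`. -/
theorem exists_det_neg_one : ∃ w ∈ order, w.det = -1 :=
  ⟨hurMat (0, 0, 0, 1), ⟨_, rfl⟩, by simp [det_hurMat, hurNorm]⟩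

/-- **Greatest common right divisors.** -/
theorem exists_gcd {x : Matrix (Fin 2) (Fin 2) ℝ} (hx : x ∈ order) {n N : ℤ} (hn : 0 < n)
    (hN : x.det = N) :
    ∃ g a b u v : Matrix (Fin 2) (Fin 2) ℝ, ∃ G : ℤ,
      (g ∈ order ∧ a ∈ order ∧ b ∈ order ∧ u ∈ order ∧ v ∈ order) ∧
      (g = a * x + (n : ℝ) • b ∧ x = u * g ∧ (n : ℝ) • 1 = v * g) ∧
      (g.det = G ∧ 0 < G ∧ (∀ d : ℤ, d ∣ n → d ∣ N → d ∣ G) ∧ G ∣ N ∧ G ∣ n ^ 2) := by
  let I : AddSubgroup (Matrix (Fin 2) (Fin 2) ℝ) :=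
    { carrier := {y | ∃ a ∈ order, ∃ b ∈ order, y = a * x + (n : ℝ) • b}
      add_mem' := by
        rintro _ _ ⟨a, ha, b, hb, rfl⟩ ⟨a', ha', b', hb', rfl⟩
        exact ⟨a + a', add_mem ha ha', b + b', add_mem hb hb', by
          rw [Matrix.add_mul, smul_add]; abel⟩
      zero_mem' := ⟨0, zero_mem _, 0, zero_mem _, by simp⟩
      neg_mem' := by
        rintro _ ⟨a, ha, b, hb, rfl⟩
        exact ⟨-a, neg_mem ha, -b, neg_mem hb, by rw [Matrix.neg_mul, smul_neg]; abel⟩ }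
  have hIO : ∀ y ∈ I, y ∈ order := by
    rintro _ ⟨a, ha, b, hb, rfl⟩
    exact add_mem (mul_mem ha hx) (intCast_smul_mem hb n)
  have hImul : ∀ c ∈ order, ∀ y ∈ I, c * y ∈ I := by
    rintro c hc _ ⟨a, ha, b, hb, rfl⟩
    exact ⟨c * a, mul_mem hc ha, c * b, mul_mem hc hb, by
      rw [Matrix.mul_add, Matrix.mul_assoc, Matrix.mul_smul]⟩
  obtain ⟨g₀, hg₀, hdiv⟩ := exists_generator I hIO hImul
  obtain ⟨v₀, hv₀, hev⟩ := hdiv ((n : ℝ) • 1) ⟨0, zero_mem _, 1, one_mem _, by simp⟩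
  have hdet₀ : g₀.det ≠ 0 := fun h0 => by
    have := congrArg Matrix.det hev
    rw [det_mul, h0, mul_zero, det_smul, det_one, mul_one] at this
    exact pow_ne_zero _ (Int.cast_ne_zero.2 hn.ne') this
  obtain ⟨g, hg, hpos, hdiv⟩ : ∃ g ∈ I, 0 < g.det ∧ ∀ y ∈ I, ∃ q ∈ order, y = q * g := by
    rcases lt_or_gt_of_ne hdet₀ with hneg | hpos
    · obtain ⟨w, hw, hw1⟩ := exists_det_neg_one
      refine ⟨w * g₀, hImul w hw g₀ hg₀, by rw [det_mul, hw1]; linarith, fun y hy => ?_⟩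
      obtain ⟨q, hq, rfl⟩ := hdiv y hy
      refine ⟨q * -adjugate w, mul_mem hq (neg_mem (adjugate_mem hw)), ?_⟩
      rw [← Matrix.mul_assoc, Matrix.mul_assoc q, Matrix.neg_mul, Matrix.adjugate_mul, hw1]
      simp
    · exact ⟨g₀, hg₀, hpos, hdiv⟩
  obtain ⟨a, ha, b, hb, hgab⟩ := hg
  obtain ⟨u, hu, hxu⟩ := hdiv x ⟨1, one_mem _, 0, zero_mem _, by simp⟩
  obtain ⟨v, hv, hnv⟩ := hdiv ((n : ℝ) • 1) ⟨0, zero_mem _, 1, one_mem _, by simp⟩
  have hgO : g ∈ order := hgab ▸ add_mem (mul_mem ha hx) (intCast_smul_mem hb n)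
  obtain ⟨G, hG⟩ := exists_det hgO
  obtain ⟨U, hU⟩ := exists_det hu
  obtain ⟨V, hV⟩ := exists_det hv
  refine ⟨g, a, b, u, v, G, ⟨hgO, ha, hb, hu, hv⟩, ⟨hgab, hxu, hnv⟩, hG, ?_, fun d hdn hdN => ?_,
    ⟨U, ?_⟩, ⟨V, ?_⟩⟩
  · exact_mod_cast hG ▸ hpos
  · obtain ⟨A, hA⟩ := exists_det ha
    obtain ⟨B, hB⟩ := exists_det hb
    obtain ⟨T, hT⟩ := exists_trace (mul_mem (mul_mem ha hx) (adjugate_mem hb))
    have e := congrArg Matrix.det hgab
    rw [det_add_smul, det_mul, hG, hA, hB, hT, hN] at e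
    rw [show G = A * N + n * T + n ^ 2 * B by exact_mod_cast e]
    exact dvd_add (dvd_add (hdN.mul_left A) (hdn.mul_right T)) ((hdn.pow two_ne_zero).mul_right B)
  · have e := congrArg Matrix.det hxu
    rw [det_mul, hN, hU, hG, mul_comm] at e
    exact_mod_cast e
  · have e := congrArg Matrix.det hnv
    rw [det_mul, det_smul, det_one, mul_one, hV, hG, Fintype.card_fin, mul_comm (V : ℝ)] at e
    exact_mod_cast e

/-- A common right divisor of the right norm is associated to the greatest one. -/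
theorem eq_mul_of_common {x g a b y u v : Matrix (Fin 2) (Fin 2) ℝ} {t : ℝ}
    (ha : a ∈ order) (hb : b ∈ order) (hu : u ∈ order) (hv : v ∈ order)
    (hg : g = a * x + t • b) (hxy : x = u * y) (hty : t • 1 = v * y) (hdet : g.det = y.det)
    (hy0 : y.det ≠ 0) : ∃ w ∈ order, w.det = 1 ∧ g = w * y := by
  refine ⟨a * u + b * v, add_mem (mul_mem ha hu) (mul_mem hb hv), ?_, ?_⟩
  swap
  · rw [Matrix.add_mul, Matrix.mul_assoc, Matrix.mul_assoc, ← hxy, ← hty, Matrix.mul_smul,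
      Matrix.mul_one, ← hg]
  · have e : g = (a * u + b * v) * y := by
      rw [Matrix.add_mul, Matrix.mul_assoc, Matrix.mul_assoc, ← hxy, ← hty, Matrix.mul_smul,
        Matrix.mul_one, ← hg]
    rw [e, det_mul] at hdet
    exact mul_right_cancel₀ hy0 (hdet.trans (one_mul _).symm)

end FA.QuaternionHecke

end
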