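import Fermat.Agent.QuaternionHecke.Lattice
import Mathlib.LinearAlgebra.Matrix.Rank
import Mathlib.FieldTheory.Finiteness

/-!
# There are `p + 1` classes of norm `p`

For `p` prime to `6` the classes of norm `p` correspond to the images of right multiplications
modulo `p`, planes partitioning the nonzero zeros of the norm form, `(p + 1) (p ^ 2 - 1)` in
number.
-/

set_option autoImplicit false
set_option linter.unusedSectionVars false
set_option linter.style.haveILetI false

noncomputable section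

open Matrix Set
open scoped MatrixGroups
open FA.Horocycle

namespace FA.QuaternionHecke

/-- Right multiplication on coordinates. -/
def rightMat (y : Quad) : Matrix (Fin 4) (Fin 4) ℤ :=
  !![y.1, -y.2.1 + y.2.2.1, -y.2.1 + 3 * y.2.2.1 + y.2.2.2, -y.2.1 + 2 * y.2.2.1 + y.2.2.2;
    y.2.1, y.1 + y.2.2.1 + y.2.2.2, -y.2.1 + y.2.2.2, -y.2.2.1;
    y.2.2.1, y.2.2.1 + y.2.2.2, y.1 - y.2.1, -y.2.1 + y.2.2.1;
    y.2.2.2, -(2 * y.2.2.1) - y.2.2.2, 2 * y.2.1 + y.2.2.2,
      y.1 + y.2.1 - y.2.2.1 + y.2.2.2]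

/-- The Gram matrix of the norm form. -/
def gram : Matrix (Fin 4) (Fin 4) ℤ :=
  !![2, 0, 0, 1; 0, 2, 0, 1; 0, 0, -6, -3; 1, 1, -3, -2]

theorem det_gram : gram.det = 36 := by
  simp [gram, Matrix.det_succ_row_zero, Fin.sum_univ_succ, Fin.succAbove]

theorem gram_mul_rightMat (y : Quad) :
    gram * rightMat (hurConj y) = (rightMat y)ᵀ * gram := by
  ext i j
  fin_cases i <;> fin_cases j <;>
    simp [gram, rightMat, hurConj, Matrix.mul_apply, Fin.sum_univ_four] <;> ring

variable (p : ℕ)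

/-- The coordinates modulo `p`. -/
def redQuad (q : Quad) : Fin 4 → ZMod p :=
  ![(q.1 : ZMod p), (q.2.1 : ZMod p), (q.2.2.1 : ZMod p), (q.2.2.2 : ZMod p)]

theorem redQuad_surjective : Function.Surjective (redQuad p) := fun v => by
  choose f hf using fun i => ZMod.intCast_surjective (v i)
  exact ⟨(f 0, f 1, f 2, f 3), funext fun i => by fin_cases i <;> simp [redQuad, hf]⟩

theorem redQuad_zero : redQuad p 0 = 0 := by
  funext i
  fin_cases i <;> simp [redQuad]

theorem redQuad_eq_iff {q r : Quad} :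
    redQuad p q = redQuad p r ↔
      ∃ z : Quad, hurMat q = hurMat r + ((p : ℤ) : ℝ) • hurMat z := by
  have hsmul : ∀ z : Quad, ((p : ℤ) : ℝ) • hurMat z =
      hurMat ((p : ℤ) * z.1, (p : ℤ) * z.2.1, (p : ℤ) * z.2.2.1, (p : ℤ) * z.2.2.2) := fun z => by
    simp only [hurMat, smul_realQuat]
    push_cast
    congr 1 <;> ring
  constructor
  · intro h
    obtain ⟨d1, h1⟩ := (ZMod.intCast_eq_intCast_iff_dvd_sub _ _ p).1 (congrFun h 0).symm
    obtain ⟨d2, h2⟩ := (ZMod.intCast_eq_intCast_iff_dvd_sub _ _ p).1 (congrFun h 1).symm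
    obtain ⟨d3, h3⟩ := (ZMod.intCast_eq_intCast_iff_dvd_sub _ _ p).1 (congrFun h 2).symm
    obtain ⟨d4, h4⟩ := (ZMod.intCast_eq_intCast_iff_dvd_sub _ _ p).1 (congrFun h 3).symm
    refine ⟨(d1, d2, d3, d4), ?_⟩
    rw [hsmul, ← hurMat_add]
    congr 1
    refine Prod.ext ?_ (Prod.ext ?_ (Prod.ext ?_ ?_)) <;>
      simp only [Prod.fst_add, Prod.snd_add] <;> linarith
  · rintro ⟨z, hz⟩
    rw [hsmul, ← hurMat_add] at hz
    rw [hurMat_injective hz]
    funext i
    fin_cases i <;> simp [redQuad]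

theorem redQuad_mul (x y : Quad) :
    redQuad p (hurMul x y) =
      ((rightMat y).map fun a : ℤ => (a : ZMod p)) *ᵥ redQuad p x := by
  funext i
  fin_cases i <;>
    simp [redQuad, hurMul, rightMat, Matrix.mulVec, dotProduct, Fin.sum_univ_four] <;> ring

/-- The norm form modulo `p`. -/
def normMod (v : Fin 4 → ZMod p) : ZMod p :=
  v 0 ^ 2 + v 0 * v 3 + v 1 ^ 2 + v 1 * v 3 - 3 * v 2 ^ 2 - 3 * (v 2 * v 3) - v 3 ^ 2

theorem normMod_redQuad (q : Quad) : normMod p (redQuad p q) = (hurNorm q : ZMod p) := by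
  simp [normMod, redQuad, hurNorm]

variable [hp : Fact p.Prime]

/-- The image of right multiplication modulo `p`. -/
def rightImage (y : Quad) : Submodule (ZMod p) (Fin 4 → ZMod p) :=
  LinearMap.range ((rightMat y).map fun a : ℤ => (a : ZMod p)).mulVecLin

theorem mem_rightImage {y : Quad} {v : Fin 4 → ZMod p} :
    v ∈ rightImage p y ↔ ∃ x, v = redQuad p (hurMul x y) := by
  constructor
  · rintro ⟨w, rfl⟩
    obtain ⟨x, rfl⟩ := redQuad_surjective p w
    exact ⟨x, (redQuad_mul p x y).symm⟩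
  · rintro ⟨x, rfl⟩
    exact ⟨redQuad p x, (redQuad_mul p x y).symm⟩

theorem finrank_rightImage (hp5 : 5 ≤ p) {y : Quad} (hy : hurNorm y = p) :
    Module.finrank (ZMod p) (rightImage p y) = 2 := by
  set R := (rightMat y).map fun a : ℤ => (a : ZMod p)
  set R' := (rightMat (hurConj y)).map fun a : ℤ => (a : ZMod p)
  have hY : (hurMat y).det = ((p : ℤ) : ℝ) := by rw [det_hurMat, hy]
  have hker : LinearMap.ker R'.mulVecLin = LinearMap.range R.mulVecLin := by
    ext v
    obtain ⟨x, rfl⟩ := redQuad_surjective p v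
    rw [LinearMap.mem_ker, Matrix.mulVecLin_apply, ← redQuad_mul]
    constructor
    · intro h
      obtain ⟨z, hz⟩ := (redQuad_eq_iff p (r := 0)).1 (h.trans (redQuad_zero p).symm)
      rw [hurMat_zero, zero_add, ← hurMat_mul, ← adjugate_hurMat] at hz
      refine (mem_rightImage p).2 ⟨z, congrArg _ (hurMat_injective ?_)⟩
      rw [← hurMat_mul]
      have e := congrArg (· * hurMat y) hz
      simp only [Matrix.mul_assoc, Matrix.adjugate_mul, hY, Matrix.mul_smul, Matrix.mul_one,
        Matrix.smul_mul] at e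
      exact smul_right_injective _ (by exact_mod_cast hp.out.ne_zero) e
    · intro h
      obtain ⟨w, hw⟩ := (mem_rightImage p).1 h
      obtain ⟨z, hz⟩ := (redQuad_eq_iff p).1 hw
      rw [← redQuad_zero p]
      refine (redQuad_eq_iff p).2 ⟨w + hurMul z (hurConj y), ?_⟩
      rw [← hurMat_mul, ← adjugate_hurMat, hz, ← hurMat_mul, Matrix.add_mul, Matrix.mul_assoc,
        Matrix.mul_adjugate, hY, hurMat_add, ← hurMat_mul, ← adjugate_hurMat, hurMat_zero,
        zero_add, smul_add]
      simp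
  have h1 := R'.mulVecLin.finrank_range_add_finrank_ker
  rw [hker, Module.finrank_fin_fun] at h1
  have hG : IsUnit ((gram.map fun a : ℤ => (a : ZMod p)).det) := by
    have h6 : ((36 : ℤ) : ZMod p) ≠ 0 := by
      rw [Ne, ZMod.intCast_zmod_eq_zero_iff_dvd]
      intro h
      have : p ∣ 6 ^ 2 := by exact_mod_cast h
      have := Nat.le_of_dvd (by norm_num) (hp.out.dvd_of_dvd_pow this)
      interval_cases p <;> norm_num at *
      all_goals exact absurd hp.out (by norm_num)
    have e := (Int.castRingHom (ZMod p)).map_det gram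
    rw [det_gram] at e
    exact isUnit_iff_ne_zero.2 (e ▸ h6)
  have h2 : R'.rank = R.rank := by
    rw [← Matrix.rank_mul_eq_right_of_isUnit_det _ R' hG,
      show (gram.map fun a : ℤ => (a : ZMod p)) * R' = Rᵀ * gram.map fun a : ℤ => (a : ZMod p)
        from ?_, Matrix.rank_mul_eq_left_of_isUnit_det _ _ hG, Matrix.rank_transpose]
    have e := congrArg (fun M : Matrix (Fin 4) (Fin 4) ℤ => (Int.castRingHom (ZMod p)).mapMatrix M)
      (gram_mul_rightMat y)
    simpa [R, R', map_mul, Matrix.transpose_map] using e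
  rw [Matrix.rank, Matrix.rank] at h2
  show Module.finrank (ZMod p) (LinearMap.range R.mulVecLin) = 2
  omega

theorem card_zeros (hp5 : 5 ≤ p) :
    Nat.card {v : Fin 4 → ZMod p // normMod p v = 0} + p = p ^ 3 + p ^ 2 := by
  classical
  obtain ⟨s, t, hst⟩ := ZMod.sq_add_sq p (3 : ZMod p)
  have hne : ∀ k : ℕ, 0 < k → k < 5 → (k : ZMod p) ≠ 0 := fun k h0 h5 h => by
    have := Nat.le_of_dvd h0 ((ZMod.natCast_eq_zero_iff k p).1 h)
    omega
  have h2 : (2 : ZMod p) ≠ 0 := by simpa using hne 2 (by norm_num) (by norm_num)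
  have h3 : (3 : ZMod p) ≠ 0 := by simpa using hne 3 (by norm_num) (by norm_num)
  set w : (Fin 4 → ZMod p) → ZMod p × ZMod p × ZMod p × ZMod p := fun v =>
    ((2 * v 0 + v 3) - (s * (2 * v 2 + v 3) - t * v 3),
      (s * v 3 + t * (2 * v 2 + v 3)) - (2 * v 1 + v 3),
      (s * v 3 + t * (2 * v 2 + v 3)) + (2 * v 1 + v 3),
      (2 * v 0 + v 3) + (s * (2 * v 2 + v 3) - t * v 3))
  have hw : Function.Injective w := fun u v e => by
    simp only [w, Prod.mk.injEq] at e
    obtain ⟨e0, e2, e3, e1⟩ := e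
    have h4 := mul_ne_zero (mul_ne_zero h2 h2) h3
    have hc : 2 * u 2 + u 3 = 2 * v 2 + v 3 := mul_left_cancel₀ h4 (by
      linear_combination (2 * s) * (e1 - e0) + (2 * t) * (e2 + e3) -
        4 * (2 * u 2 + u 3 - 2 * v 2 - v 3) * hst)
    have hd : u 3 = v 3 := mul_left_cancel₀ h4 (by
      linear_combination (2 * s) * (e2 + e3) - (2 * t) * (e1 - e0) -
        4 * (u 3 - v 3) * hst)
    have ha : u 0 = v 0 := mul_left_cancel₀ (mul_ne_zero h2 h2) (by
      linear_combination e0 + e1 - 2 * hd)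
    have hb : u 1 = v 1 := mul_left_cancel₀ (mul_ne_zero h2 h2) (by
      linear_combination e3 - e2 - 2 * hd)
    have hc' : u 2 = v 2 := mul_left_cancel₀ h2 (by linear_combination hc - hd)
    funext i
    fin_cases i <;> assumption
  have hcard : Fintype.card (Fin 4 → ZMod p) =
      Fintype.card (ZMod p × ZMod p × ZMod p × ZMod p) := by
    simp [Fintype.card_prod]; ring
  have key : ∀ v, normMod p v = 0 ↔ (w v).1 * (w v).2.2.2 = (w v).2.1 * (w v).2.2.1 := fun v => by
    rw [← sub_eq_zero (b := (w v).2.1 * (w v).2.2.1), show (w v).1 * (w v).2.2.2 -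
      (w v).2.1 * (w v).2.2.1 = 4 * normMod p v from ?_]
    · exact ⟨fun h => by rw [h, mul_zero], fun h => (mul_eq_zero.1 h).resolve_left
        (by simpa [show (4 : ZMod p) = 2 * 2 by norm_num] using h2)⟩
    · simp only [w, normMod]
      linear_combination -((2 * v 2 + v 3) ^ 2 + v 3 ^ 2) * hst
  set g : ZMod p → ZMod p → ZMod p → ℕ := fun a b c =>
    (Finset.univ.filter fun x : ZMod p => a * x = b * c).card
  have hg : Nat.card {v : Fin 4 → ZMod p // normMod p v = 0} = ∑ a, ∑ b, ∑ c, g a b c := by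
    rw [Nat.card_congr ((Equiv.ofBijective w ((Fintype.bijective_iff_injective_and_card w).2
      ⟨hw, hcard⟩)).subtypeEquiv (q := fun t => t.1 * t.2.2.2 = t.2.1 * t.2.2.1) key)]
    rw [Nat.card_eq_fintype_card, Fintype.card_subtype, Finset.card_eq_sum_ones,
      Finset.sum_filter, Fintype.sum_prod_type]
    refine Finset.sum_congr rfl fun a _ => ?_
    rw [Fintype.sum_prod_type]
    refine Finset.sum_congr rfl fun b _ => ?_
    rw [Fintype.sum_prod_type]
    refine Finset.sum_congr rfl fun c _ => ?_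
    simp only [g, Finset.card_eq_sum_ones, Finset.sum_filter]
  have hne0 : ∀ a, a ≠ 0 → ∀ b c, g a b c = 1 := fun a ha b c => by
    simp only [g]
    rw [Finset.card_eq_one]
    exact ⟨a⁻¹ * (b * c), by
      ext x
      simp only [Finset.mem_filter, Finset.mem_univ, true_and, Finset.mem_singleton]
      rw [eq_inv_mul_iff_mul_eq₀ ha]⟩
  have h0 : ∀ b c, g 0 b c = if b * c = 0 then p else 0 := fun b c => by
    simp only [g, zero_mul]
    split_ifs with h <;> simp [h, eq_comm (a := (0 : ZMod p)), ZMod.card]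
  have hzero : ∑ b, ∑ c, g 0 b c + p = 2 * p ^ 2 := by
    rw [← Finset.add_sum_erase _ (fun b => ∑ c, g 0 b c) (Finset.mem_univ (0 : ZMod p)),
      Finset.sum_congr rfl (s₁ := Finset.univ.erase (0 : ZMod p)) (g := fun _ => p) fun b hb => by
        simp [h0, Finset.ne_of_mem_erase hb]]
    simp [h0, Finset.card_erase_of_mem, ZMod.card]
    obtain ⟨k, rfl⟩ : ∃ k, p = k + 1 := ⟨p - 1, by omega⟩
    simp
    ring
  rw [hg, ← Finset.add_sum_erase _ (fun a => ∑ b, ∑ c, g a b c) (Finset.mem_univ (0 : ZMod p)),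
    Finset.sum_congr rfl (s₁ := Finset.univ.erase (0 : ZMod p)) (g := fun _ => p * p) fun a ha => by
      simp [hne0 a (Finset.ne_of_mem_erase ha), ZMod.card]]
  simp [Finset.card_erase_of_mem, ZMod.card]
  obtain ⟨k, rfl⟩ : ∃ k, p = k + 1 := ⟨p - 1, by omega⟩
  simp at hzero ⊢
  nlinarith [hzero]

/-- **There are `p + 1` classes of norm `p`.** -/
theorem card_reps_prime (hp5 : 5 ≤ p) : (reps p).card = p + 1 := by
  classical
  haveI : NeZero p := ⟨hp.out.ne_zero⟩
  have hcoord : ∀ y : reps p, ∃ q : Quad,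
      hurMat q = Real.sqrt p • ((y : SL(2, ℝ)) : Matrix (Fin 2) (Fin 2) ℝ) := fun y =>
    mem_order.1 ((isTransversal_reps p).1 y y.2)
  choose coord hc using hcoord
  have hnorm : ∀ y, hurNorm (coord y) = p := fun y => by
    have e := det_sqrt_smul p (y : SL(2, ℝ))
    rw [← hc y, det_hurMat] at e
    exact_mod_cast e
  have hiso : ∀ (y : reps p) (v : Fin 4 → ZMod p), v ∈ rightImage p (coord y) →
      normMod p v = 0 := fun y v hv => by
    obtain ⟨x, rfl⟩ := (mem_rightImage p).1 hv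
    have e := congrArg Matrix.det (hurMat_mul x (coord y))
    rw [det_mul, det_hurMat, det_hurMat, det_hurMat, hnorm] at e
    rw [normMod_redQuad, show hurNorm (hurMul x (coord y)) = hurNorm x * p from
      by exact_mod_cast e.symm]
    simp
  have hex : ∀ v : Fin 4 → ZMod p, normMod p v = 0 → v ≠ 0 →
      ∃! y : reps p, v ∈ rightImage p (coord y) := fun v hv hv0 => by
    obtain ⟨x, rfl⟩ := redQuad_surjective p v
    rw [normMod_redQuad, ZMod.intCast_zmod_eq_zero_iff_dvd] at hv
    obtain ⟨g, a, b, u, w, G, ⟨hgO, ha, hb, hu, hw⟩, ⟨hgab, hxu, hnw⟩, hGd, hpos, hdvd, -, h2⟩ :=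
      exists_gcd (x := hurMat x) ⟨_, rfl⟩ (n := (p : ℤ)) (by exact_mod_cast hp.out.pos)
        (det_hurMat x)
    lift G to ℕ using hpos.le
    have hpG : p ∣ G := by exact_mod_cast hdvd p dvd_rfl hv
    norm_cast at h2
    obtain ⟨i, hi, rfl⟩ := (Nat.dvd_prime_pow hp.out).1 h2
    interval_cases i
    · exact absurd (Nat.le_of_dvd one_pos (by simpa using hpG)) (by omega)
    swap
    · refine absurd ?_ hv0
      push_cast at hGd
      have hw1 : w.det = 1 := by
        have e := congrArg Matrix.det hnw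
        rw [det_mul, det_smul, det_one, mul_one, hGd, Fintype.card_fin] at e
        push_cast at e
        exact mul_right_cancel₀ (pow_ne_zero 2 (Nat.cast_ne_zero.2 hp.out.ne_zero))
          (e.symm.trans (one_mul _).symm)
      have hg : g = ((p : ℤ) : ℝ) • adjugate w := by
        have e := congrArg (adjugate w * ·) hnw
        simp only [Matrix.mul_smul, Matrix.mul_one, ← Matrix.mul_assoc, Matrix.adjugate_mul, hw1,
          one_smul, Matrix.one_mul] at e
        exact e.symm
      obtain ⟨q, hq⟩ := mem_order.1 (mul_mem hu (adjugate_mem hw))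
      rw [hg, Matrix.mul_smul, ← hq] at hxu
      rw [← redQuad_zero p]
      exact (redQuad_eq_iff p).2 ⟨q, by rw [hurMat_zero, zero_add, hxu]⟩
    obtain ⟨y0, hy0, hy0g⟩ := exists_normSet hgO (n := p) (by simpa using hGd)
    obtain ⟨y, ⟨hy, hy0y⟩, huniq⟩ := (isTransversal_reps p).2 y0 hy0
    refine ⟨⟨y, hy⟩, ?_, fun z hz => ?_⟩
    · have hfac : g = ((y0 * y⁻¹ : SL(2, ℝ)) : Matrix (Fin 2) (Fin 2) ℝ) *
          hurMat (coord ⟨y, hy⟩) := by
        rw [hc, Matrix.mul_smul, ← SpecialLinearGroup.coe_mul, inv_mul_cancel_right, hy0g]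
      obtain ⟨r, hr⟩ := mem_order.1 (mul_mem hu (mem_orderUnits.1 hy0y))
      refine (mem_rightImage p).2 ⟨r, congrArg _ (hurMat_injective ?_)⟩
      rw [hxu, hfac, ← Matrix.mul_assoc, ← hr, hurMat_mul]
    · obtain ⟨r, hr⟩ := (mem_rightImage p).1 hz
      obtain ⟨d, hd⟩ := (redQuad_eq_iff p).1 hr
      have hZd : (hurMat (coord z)).det = ((p : ℤ) : ℝ) := by rw [det_hurMat, hnorm]
      have hX : hurMat x = (hurMat r + hurMat d * adjugate (hurMat (coord z))) *
          hurMat (coord z) := by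
        rw [hd, ← hurMat_mul, Matrix.add_mul, Matrix.mul_assoc (hurMat d), Matrix.adjugate_mul,
          hZd]
        simp
      obtain ⟨t, ht, -, hgt⟩ := eq_mul_of_common ha hb
        (add_mem ⟨r, rfl⟩ (mul_mem ⟨d, rfl⟩ (adjugate_mem ⟨_, rfl⟩)))
        (adjugate_mem (⟨coord z, rfl⟩ : hurMat (coord z) ∈ order)) hgab hX
        (by rw [Matrix.adjugate_mul, hZd]) (by rw [hGd, hZd]; simp)
        (by rw [hZd]; exact_mod_cast hp.out.ne_zero)
      refine Subtype.ext (huniq z ⟨z.2, mem_orderUnits.2 ?_⟩)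
      rw [← hy0g, hc, Matrix.mul_smul] at hgt
      have hs : Real.sqrt p ≠ 0 := (Real.sqrt_pos.2 (Nat.cast_pos.2 hp.out.pos)).ne'
      rw [SpecialLinearGroup.coe_mul, smul_right_injective _ hs hgt, Matrix.mul_assoc,
        ← SpecialLinearGroup.coe_mul, mul_inv_cancel, SpecialLinearGroup.coe_one, Matrix.mul_one]
      exact ht
  have hsize : ∀ y, Nat.card {v : rightImage p (coord y) // v ≠ 0} + 1 = p ^ 2 := fun y => by
    haveI := Fintype.ofFinite (rightImage p (coord y))
    rw [Nat.card_eq_fintype_card, Fintype.card_subtype_compl, Fintype.card_subtype_eq,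
      ← Nat.card_eq_fintype_card, Module.natCard_eq_pow_finrank (K := ZMod p),
      finrank_rightImage p hp5 (hnorm y), Nat.card_zmod]
    exact Nat.sub_add_cancel (Nat.one_le_pow _ _ hp.out.pos)
  have hbij : Function.Bijective fun t : Σ y : reps p, {v : rightImage p (coord y) // v ≠ 0} =>
      (⟨(t.2.1 : Fin 4 → ZMod p), hiso t.1 _ t.2.1.2, fun h => t.2.2 (Subtype.ext h)⟩ :
        {v : Fin 4 → ZMod p // normMod p v = 0 ∧ v ≠ 0}) := by
    refine ⟨fun t t' h => ?_, fun v => ?_⟩
    · obtain ⟨y, ⟨v, hv⟩, hv0⟩ := t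
      obtain ⟨y', ⟨v', hv'⟩, hv0'⟩ := t'
      obtain rfl : v = v' := congrArg Subtype.val h
      obtain rfl := (hex v (hiso y v hv) fun h => hv0 (Subtype.ext h)).unique hv hv'
      rfl
    · obtain ⟨y, hy, -⟩ := hex v v.2.1 v.2.2
      exact ⟨⟨y, ⟨v, hy⟩, fun h => v.2.2 (congrArg Subtype.val h)⟩, rfl⟩
  have hsplit : Nat.card {v : Fin 4 → ZMod p // normMod p v = 0 ∧ v ≠ 0} + 1 =
      Nat.card {v : Fin 4 → ZMod p // normMod p v = 0} := by
    rw [Nat.card_eq_fintype_card, Nat.card_eq_fintype_card, Fintype.card_subtype,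
      Fintype.card_subtype, ← Finset.filter_filter, Finset.filter_ne',
      Finset.card_erase_add_one]
    simp [normMod]
  have hsum := Nat.card_congr (Equiv.ofBijective _ hbij)
  rw [Nat.card_sigma, Finset.sum_congr rfl (g := fun _ => p ^ 2 - 1) fun y _ => by
    have := hsize y; omega, Finset.sum_const, Finset.card_univ, Fintype.card_coe,
    smul_eq_mul] at hsum
  have hz := card_zeros p hp5
  rw [← hsplit, ← hsum] at hz
  obtain ⟨k, hk⟩ : ∃ k, p ^ 2 = k + 2 :=
    ⟨p ^ 2 - 2, by have := Nat.pow_le_pow_left hp5 2; omega⟩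
  rw [hk] at hz
  simp at hz
  have hz' : (k + 1) * ((reps p).card) = (k + 1) * (p + 1) := by
    nlinarith [hz, hk]
  exact Nat.eq_of_mul_eq_mul_left k.succ_pos hz'

end FA.QuaternionHecke

end
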