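import Fermat.Agent.QuaternionHecke.Count
import Mathlib.Data.Nat.Factorization.Induction

/-!
# The Hecke operators

`T n f = ∑ f ∣ g` over the classes of elements of norm `n`, with
`(f ∣ g) z = (c z + d) ^ (-k) f (g z)` for `g` scaled to determinant one.  They are multiplicative,
satisfy the recursion at primes, and commute.
-/

set_option autoImplicit false
set_option linter.unusedSectionVars false
set_option linter.style.haveILetI false

noncomputable section

open Matrix Set Complex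
open UpperHalfPlane hiding I
open FA.CocompactForms
open scoped MatrixGroups Manifold

namespace FA.QuaternionHecke

/-- The slash action of weight `k`. -/
def slash (k : ℤ) (g : SL(2, ℝ)) : (ℍ → ℂ) →ₗ[ℂ] ℍ → ℂ where
  toFun f z := jac g z ^ (-k) * f (g • z)
  map_add' f h := funext fun z => mul_add _ _ _
  map_smul' c f := funext fun z => by simp [mul_left_comm]

theorem slash_apply (k : ℤ) (g : SL(2, ℝ)) (f : ℍ → ℂ) (z : ℍ) :
    slash k g f z = jac g z ^ (-k) * f (g • z) := rfl

theorem slash_slash (k : ℤ) (g h : SL(2, ℝ)) (f : ℍ → ℂ) :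
    slash k h (slash k g f) = slash k (g * h) f := by
  funext z
  simp only [slash_apply, jac_mul, mul_smul, mul_zpow]
  ring

theorem slash_eq_self {Γ : Subgroup SL(2, ℝ)} {k : ℤ} {f : ℍ → ℂ} (hf : IsForm Γ k f)
    {γ : SL(2, ℝ)} (hγ : γ ∈ Γ) : slash k γ f = f := by
  funext z
  rw [slash_apply, hf.2 γ hγ z, ← mul_assoc,
    ← zpow_add₀ (jac_ne_zero γ z.im_ne_zero), neg_add_cancel, zpow_zero, one_mul]

theorem slash_units_mul {k : ℤ} {f : ℍ → ℂ} (hf : IsForm orderUnits k f) {γ : SL(2, ℝ)}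
    (hγ : γ ∈ orderUnits) (g : SL(2, ℝ)) : slash k (γ * g) f = slash k g f := by
  rw [← slash_slash, slash_eq_self hf hγ]

theorem mdiff_slash (k : ℤ) (g : SL(2, ℝ)) {f : ℍ → ℂ} (hf : MDiff f) :
    MDiff (slash k g f) := by
  rw [UpperHalfPlane.mdifferentiable_iff] at hf ⊢
  intro z hz
  have hne : jac g z ≠ 0 := jac_ne_zero g (ne_of_gt hz)
  have hmob : mob g z = ((g • (⟨z, hz⟩ : ℍ) : ℍ) : ℂ) := (coe_smul_eq_mob g ⟨z, hz⟩).symm
  have hd : DifferentiableAt ℂ (fun w => jac g w ^ (-k) * (f ∘ ofComplex) (mob g w)) z := by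
    have hj : DifferentiableAt ℂ (fun w => jac g w) z := by
      simp only [jac]
      fun_prop
    have hm : DifferentiableAt ℂ (fun w => mob g w) z := by
      simp only [mob]
      refine DifferentiableAt.div (by fun_prop) hj hne
    have hf' : DifferentiableAt ℂ (f ∘ ofComplex) (mob g z) := by
      refine hf.differentiableAt ((isOpen_lt continuous_const Complex.continuous_im).mem_nhds ?_)
      rw [hmob]
      exact UpperHalfPlane.im_pos _
    exact (hj.zpow (Or.inl hne)).mul (hf'.comp z hm)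
  refine hd.differentiableWithinAt.congr (fun w hw => ?_) ?_ <;>
    simp only [Function.comp_apply, slash_apply]
  · rw [ofComplex_apply_of_im_pos hw, ← coe_smul_eq_mob g ⟨w, hw⟩, ofComplex_apply]
  · rw [ofComplex_apply_of_im_pos hz, hmob, ofComplex_apply]

/-- The operator on functions. -/
def heckeFun (k : ℤ) (n : ℕ) : (ℍ → ℂ) →ₗ[ℂ] ℍ → ℂ := ∑ r ∈ reps n, slash k r

theorem heckeFun_apply (k : ℤ) (n : ℕ) (f : ℍ → ℂ) :
    heckeFun k n f = ∑ r ∈ reps n, slash k r f := by
  simp [heckeFun]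

theorem heckeFun_eq_sum {k : ℤ} {n : ℕ} [NeZero n] {f : ℍ → ℂ} (hf : IsForm orderUnits k f)
    {T : Finset SL(2, ℝ)} (hT : IsTransversal (normSet n) T) :
    heckeFun k n f = ∑ r ∈ T, slash k r f := by
  rw [heckeFun_apply]
  exact sum_eq_of_transversal (isTransversal_reps n) hT fun γ hγ g _ => slash_units_mul hf hγ g

theorem slash_heckeFun {k : ℤ} {n : ℕ} [NeZero n] {f : ℍ → ℂ} (hf : IsForm orderUnits k f)
    {γ : SL(2, ℝ)} (hγ : γ ∈ orderUnits) : slash k γ (heckeFun k n f) = heckeFun k n f := by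
  classical
  have hR := isTransversal_reps n
  rw [heckeFun_apply, map_sum]
  simp only [slash_slash]
  rw [← Finset.sum_image (f := fun x => slash k x f) (g := fun r => r * γ)
    fun _ _ _ _ h => mul_right_cancel h]
  refine (heckeFun_eq_sum hf ⟨fun x hx => ?_, fun g hg => ?_⟩).symm.trans (heckeFun_apply k n f)
  · obtain ⟨r, hr, rfl⟩ := Finset.mem_image.1 hx
    exact mul_units_mem (hR.1 r hr) hγ
  · obtain ⟨r, ⟨hr, hgr⟩, huniq⟩ := hR.2 (g * γ⁻¹) (mul_units_mem hg (orderUnits.inv_mem hγ))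
    refine ⟨r * γ, ⟨Finset.mem_image_of_mem _ hr, by simpa [mul_assoc] using hgr⟩, ?_⟩
    rintro x ⟨hx, hgx⟩
    obtain ⟨s, hs, rfl⟩ := Finset.mem_image.1 hx
    show s * γ = r * γ
    rw [huniq s ⟨hs, by simpa [mul_assoc] using hgx⟩]

theorem isForm_heckeFun {k : ℤ} {n : ℕ} [NeZero n] {f : ℍ → ℂ} (hf : IsForm orderUnits k f) :
    IsForm orderUnits k (heckeFun k n f) := by
  refine ⟨?_, fun γ hγ z => ?_⟩
  · rw [heckeFun_apply, UpperHalfPlane.mdifferentiable_iff]
    have h := DifferentiableOn.fun_sum (u := reps n)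
      fun r _ => UpperHalfPlane.mdifferentiable_iff.1 (mdiff_slash k r hf.1)
    refine h.congr fun w _ => ?_
    simp [Function.comp_apply, Finset.sum_apply]
  · conv_rhs => rw [← slash_heckeFun hf hγ]
    rw [slash_apply, ← mul_assoc, ← zpow_add₀ (jac_ne_zero γ z.im_ne_zero), add_neg_cancel,
      zpow_zero, one_mul]

/-- **The Hecke operator on forms.** -/
def hecke (k : ℤ) (n : ℕ+) : Module.End ℂ (forms orderUnits k) :=
  haveI : NeZero (n : ℕ) := ⟨n.ne_zero⟩
  (heckeFun k n).restrict fun _ hf => isForm_heckeFun (n := (n : ℕ)) hf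

theorem coe_hecke (k : ℤ) (n : ℕ+) (f : forms orderUnits k) :
    ((hecke k n f : forms orderUnits k) : ℍ → ℂ) = heckeFun k n f := rfl

theorem heckeFun_comp {k : ℤ} (m n : ℕ) [NeZero m] [NeZero n] {f : ℍ → ℂ}
    (hf : IsForm orderUnits k f) :
    heckeFun k n (heckeFun k m f) =
      ∑ x ∈ reps (m * n),
        Nat.card {y // y ∈ reps n ∧ x * y⁻¹ ∈ normSet m} • slash k x f := by
  rw [heckeFun_apply, heckeFun_apply, ← sum_eq_card m n fun γ hγ g _ => slash_units_mul hf hγ g]
  simp only [map_sum, slash_slash]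

/-- **Multiplicativity.** -/
theorem hecke_mul (k : ℤ) {m n : ℕ+} (h : (m : ℕ).Coprime n) :
    hecke k n * hecke k m = hecke k (m * n) := by
  haveI : NeZero (m : ℕ) := ⟨m.ne_zero⟩
  haveI : NeZero (n : ℕ) := ⟨n.ne_zero⟩
  haveI : NeZero ((m : ℕ) * n) := ⟨mul_ne_zero m.ne_zero n.ne_zero⟩
  refine LinearMap.ext fun f => Subtype.ext ?_
  rw [Module.End.mul_apply, coe_hecke, coe_hecke, coe_hecke, heckeFun_comp _ _ f.2, PNat.mul_coe,
    heckeFun_apply]
  exact Finset.sum_congr rfl fun x hx => by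
    rw [card_divisor_coprime h ((isTransversal_reps _).1 x hx), one_smul]

theorem hecke_one (k : ℤ) : hecke k 1 = 1 := by
  refine LinearMap.ext fun f => Subtype.ext ?_
  have h1 : IsTransversal (normSet 1) {1} := by
    refine ⟨fun r hr => ?_, fun g hg => ⟨1, ⟨Finset.mem_singleton_self _, ?_⟩,
      fun r hr => Finset.mem_singleton.1 hr.1⟩⟩
    · rw [Finset.mem_singleton.1 hr, normSet_one]
      exact orderUnits.one_mem
    · rw [normSet_one] at hg
      simpa using hg
  rw [coe_hecke, PNat.one_coe, heckeFun_eq_sum f.2 h1, Finset.sum_singleton,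
    slash_eq_self f.2 orderUnits.one_mem, Module.End.one_apply]

/-- **The recursion at a prime.** -/
theorem hecke_prime_pow (k : ℤ) {p : ℕ+} (hp : (p : ℕ).Prime) (r : ℕ) :
    hecke k p * hecke k (p ^ (r + 1)) =
      hecke k (p ^ (r + 2)) + (((reps p).card : ℂ) - 1) • hecke k (p ^ r) := by
  haveI : NeZero (p : ℕ) := ⟨hp.ne_zero⟩
  have hmul : (p : ℕ) ^ (r + 1) * p = (p : ℕ) ^ (r + 2) := (pow_succ _ _).symm
  have hR := isTransversal_reps ((p : ℕ) ^ (r + 1) * p)
  refine LinearMap.ext fun f => Subtype.ext ?_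
  simp only [Module.End.mul_apply, LinearMap.add_apply, LinearMap.smul_apply, Submodule.coe_add,
    Submodule.coe_smul, coe_hecke, PNat.pow_coe]
  rw [heckeFun_comp _ _ f.2, ← hmul, heckeFun_apply k ((p : ℕ) ^ (r + 1) * p)]
  classical
  set R := reps ((p : ℕ) ^ (r + 1) * p)
  have hold : IsTransversal (normSet ((p : ℕ) ^ r))
      (R.filter fun x => x ∈ normSet ((p : ℕ) ^ r)) := by
    refine ⟨fun x hx => (Finset.mem_filter.1 hx).2, fun g hg => ?_⟩
    have hg' : g ∈ normSet ((p : ℕ) ^ (r + 1) * p) := by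
      rw [show (p : ℕ) ^ (r + 1) * p = (p : ℕ) ^ r * (p : ℕ) ^ 2 by ring]
      exact normSet_subset_sq _ _ hg
    obtain ⟨x, ⟨hx, hgx⟩, huniq⟩ := hR.2 g hg'
    refine ⟨x, ⟨Finset.mem_filter.2 ⟨hx, ?_⟩, hgx⟩,
      fun y hy => huniq y ⟨(Finset.mem_filter.1 hy.1).1, hy.2⟩⟩
    simpa [mul_assoc] using units_mul_mem (orderUnits.inv_mem hgx) hg
  rw [heckeFun_eq_sum f.2 hold]
  have hc : ∀ x ∈ R, Nat.card {y // y ∈ reps p ∧ x * y⁻¹ ∈ normSet ((p : ℕ) ^ (r + 1))} =
      if x ∈ normSet ((p : ℕ) ^ r) then (reps p).card else 1 := fun x hx => by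
    split_ifs with h
    · rw [← Nat.card_eq_finsetCard]
      refine Nat.card_congr (Equiv.subtypeEquivRight fun y => ⟨And.left, fun hy => ⟨hy, ?_⟩⟩)
      rw [pow_succ]
      exact mul_mem_normSet h (inv_mem_normSet ((isTransversal_reps _).1 y hy))
    · exact card_divisor_prime hp (hR.1 x hx) h
  rw [Finset.smul_sum, Finset.sum_filter, ← Finset.sum_add_distrib]
  refine Finset.sum_congr rfl fun x hx => ?_
  rw [hc x hx]
  split_ifs with h
  · rw [← Nat.cast_smul_eq_nsmul ℂ, sub_smul, one_smul, add_sub_cancel]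
  · rw [one_smul, add_zero]

theorem commute_prime_pow (k : ℤ) {p : ℕ+} (hp : (p : ℕ).Prime)
    {X : Module.End ℂ (forms orderUnits k)} (hX : Commute X (hecke k p)) :
    ∀ r : ℕ, Commute X (hecke k (p ^ r)) := by
  intro r
  induction r using Nat.strong_induction_on with
  | _ r ih =>
    match r with
    | 0 => rw [pow_zero, hecke_one]; exact Commute.one_right X
    | 1 => rwa [pow_one]
    | r + 2 =>
      rw [show hecke k (p ^ (r + 2)) = hecke k p * hecke k (p ^ (r + 1)) -
        (((reps p).card : ℂ) - 1) • hecke k (p ^ r) by rw [hecke_prime_pow k hp r]; abel]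
      show X * (_ - _) = (_ - _) * X
      refine LinearMap.ext fun f => ?_
      have e1 := LinearMap.congr_fun (ih r (by omega)).eq f
      have e2 := LinearMap.congr_fun (hX.mul_right (ih (r + 1) (by omega))).eq f
      simp only [Module.End.mul_apply, LinearMap.sub_apply, LinearMap.smul_apply, map_sub,
        map_smul] at e1 e2 ⊢
      rw [e1, e2]

/-- **The operators commute.** -/
theorem hecke_commute (k : ℤ) (m n : ℕ+) : Commute (hecke k m) (hecke k n) := by
  suffices H : ∀ a : ℕ, ∀ ha : 0 < a, ∀ X : Module.End ℂ (forms orderUnits k),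
      (∀ p : ℕ+, (p : ℕ).Prime → ∀ i, Commute X (hecke k (p ^ i))) → Commute X (hecke k ⟨a, ha⟩) by
    refine H n n.pos _ fun q hq j => (H m m.pos _ fun p hp i => ?_).symm
    refine commute_prime_pow k hp ?_ i
    refine (commute_prime_pow k hq ?_ j).symm
    rcases eq_or_ne p q with rfl | hpq
    · exact Commute.refl _
    · have hc : (p : ℕ).Coprime q :=
        (Nat.coprime_primes hp hq).2 fun h => hpq (PNat.coe_injective h)
      show hecke k p * hecke k q = hecke k q * hecke k p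
      rw [hecke_mul k hc.symm, hecke_mul k hc, mul_comm p q]
  intro a
  induction a using Nat.recOnPrimeCoprime with
  | zero => intro ha; exact absurd ha (lt_irrefl 0)
  | prime_pow p i hp =>
    intro ha X hX
    rw [show (⟨p ^ i, ha⟩ : ℕ+) = (⟨p, hp.pos⟩ : ℕ+) ^ i from
      PNat.eq (show p ^ i = _ from (PNat.pow_coe (⟨p, hp.pos⟩ : ℕ+) i).symm)]
    exact hX ⟨p, hp.pos⟩ hp i
  | coprime a b ha hb hab iha ihb =>
    intro hpos X hX
    set A : ℕ+ := ⟨a, by omega⟩ with hA
    set B : ℕ+ := ⟨b, by omega⟩ with hB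
    rw [show (⟨a * b, hpos⟩ : ℕ+) = A * B from rfl, ← hecke_mul k (m := A) (n := B) hab]
    exact (ihb (by omega) X hX).mul_right (iha (by omega) X hX)

end FA.QuaternionHecke

end
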