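import Fermat.Agent.QuaternionHecke.Order
import Fermat.Agent.CocompactHurwitz.Overgroup

/-!
# The unit group and the sets of elements of given norm

The units of norm one form a discrete cocompact group, the elements of norm `n` fall into finitely
many classes under it, every positive integer is a norm, and right divisors of coprime or prime
norm are unique.
-/

set_option autoImplicit false
set_option linter.unusedSectionVars false
set_option linter.style.haveILetI false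

noncomputable section

open Matrix Set Topology
open scoped MatrixGroups
open FA.Horocycle

namespace FA.QuaternionHecke

/-- **The units of norm one.** -/
def orderUnits : Subgroup SL(2, ℝ) where
  carrier := {g | (g : Matrix (Fin 2) (Fin 2) ℝ) ∈ order}
  one_mem' := by simp [one_mem]
  mul_mem' {g h} hg hh := by simpa using mul_mem hg hh
  inv_mem' {g} hg := by simpa [SpecialLinearGroup.coe_inv] using adjugate_mem hg

theorem mem_orderUnits {g : SL(2, ℝ)} :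
    g ∈ orderUnits ↔ (g : Matrix (Fin 2) (Fin 2) ℝ) ∈ order := Iff.rfl

theorem unitGroup_le : Horocycle.unitGroup ≤ orderUnits := by
  rintro g ⟨q, hq⟩
  refine mem_orderUnits.2 ⟨(q.1 - q.2.2.2, q.2.1 - q.2.2.2, q.2.2.1 - q.2.2.2, 2 * q.2.2.2), ?_⟩
  rw [hq]
  ext i j
  fin_cases i <;> fin_cases j <;> simp [hurMat, realQuat, quadMat]

/-- The elements of norm `n`, scaled to determinant one. -/
def normSet (n : ℕ) : Set SL(2, ℝ) :=
  {g | Real.sqrt n • (g : Matrix (Fin 2) (Fin 2) ℝ) ∈ order}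

theorem normSet_one : normSet 1 = (orderUnits : Set SL(2, ℝ)) := by
  ext g
  simp [normSet, mem_orderUnits]

theorem mul_mem_normSet {m n : ℕ} {g h : SL(2, ℝ)} (hg : g ∈ normSet m) (hh : h ∈ normSet n) :
    g * h ∈ normSet (m * n) := by
  show Real.sqrt ((m * n : ℕ) : ℝ) • ((g * h : SL(2, ℝ)) : Matrix (Fin 2) (Fin 2) ℝ) ∈ order
  rw [Nat.cast_mul, Real.sqrt_mul (Nat.cast_nonneg m), SpecialLinearGroup.coe_mul,
    ← smul_mul_smul_comm]
  exact mul_mem hg hh

theorem inv_mem_normSet {n : ℕ} {g : SL(2, ℝ)} (hg : g ∈ normSet n) : g⁻¹ ∈ normSet n := by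
  show Real.sqrt n • ((g⁻¹ : SL(2, ℝ)) : Matrix (Fin 2) (Fin 2) ℝ) ∈ order
  have h := adjugate_mem hg
  rwa [adjugate_smul, Fintype.card_fin, pow_one, ← SpecialLinearGroup.coe_inv] at h

theorem units_mul_mem {n : ℕ} {γ g : SL(2, ℝ)} (hγ : γ ∈ orderUnits) (hg : g ∈ normSet n) :
    γ * g ∈ normSet n := by
  have h : γ ∈ normSet 1 := by rw [normSet_one]; exact hγ
  simpa using mul_mem_normSet h hg

theorem mul_units_mem {n : ℕ} {γ g : SL(2, ℝ)} (hg : g ∈ normSet n) (hγ : γ ∈ orderUnits) :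
    g * γ ∈ normSet n := by
  have h : γ ∈ normSet 1 := by rw [normSet_one]; exact hγ
  simpa using mul_mem_normSet hg h

theorem normSet_subset_sq (m k : ℕ) : normSet m ⊆ normSet (m * k ^ 2) := fun g hg => by
  show Real.sqrt ((m * k ^ 2 : ℕ) : ℝ) • (g : Matrix (Fin 2) (Fin 2) ℝ) ∈ order
  rw [Nat.cast_mul, Nat.cast_pow, Real.sqrt_mul (Nat.cast_nonneg m),
    Real.sqrt_sq (Nat.cast_nonneg k), mul_comm, mul_smul]
  exact_mod_cast intCast_smul_mem hg (k : ℤ)

theorem det_sqrt_smul (n : ℕ) (g : SL(2, ℝ)) :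
    (Real.sqrt n • (g : Matrix (Fin 2) (Fin 2) ℝ)).det = n := by
  rw [det_smul, g.prop, mul_one, Fintype.card_fin, Real.sq_sqrt (Nat.cast_nonneg n)]

theorem exists_normSet {n : ℕ} [NeZero n] {x : Matrix (Fin 2) (Fin 2) ℝ} (hx : x ∈ order)
    (hd : x.det = n) : ∃ g ∈ normSet n, Real.sqrt n • (g : Matrix (Fin 2) (Fin 2) ℝ) = x := by
  have hn : (0 : ℝ) < n := Nat.cast_pos.2 (NeZero.pos n)
  have hs : Real.sqrt n ≠ 0 := (Real.sqrt_pos.2 hn).ne'
  refine ⟨⟨(Real.sqrt n)⁻¹ • x, ?_⟩, ?_, ?_⟩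
  · rw [det_smul, hd, Fintype.card_fin, inv_pow, Real.sq_sqrt hn.le, inv_mul_cancel₀ hn.ne']
  · show Real.sqrt n • ((Real.sqrt n)⁻¹ • x) ∈ order
    rwa [smul_inv_smul₀ hs]
  · exact smul_inv_smul₀ hs x

theorem finite_bounded (R : ℝ) : {q : Quad | ∀ i j, |hurMat q i j| ≤ R}.Finite := by
  set M : ℤ := ⌈4 * R⌉
  refine ((finite_Icc (-M) M).prod ((finite_Icc (-M) M).prod ((finite_Icc (-M) M).prod
    (finite_Icc (-M) M)))).subset fun q hq => ?_
  have hs : (1 : ℝ) ≤ Real.sqrt 3 := Real.one_le_sqrt.2 (by norm_num)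
  have h00 := abs_le.1 (hq 0 0)
  have h01 := abs_le.1 (hq 0 1)
  have h10 := abs_le.1 (hq 1 0)
  have h11 := abs_le.1 (hq 1 1)
  simp [hurMat, realQuat] at h00 h01 h10 h11
  have hR : 0 ≤ R := (abs_nonneg _).trans (hq 0 0)
  have hM : 4 * R ≤ M := Int.le_ceil _
  have hle : ∀ u : ℝ, |u * Real.sqrt 3| ≤ R → |u| ≤ R := fun u hu =>
    (le_mul_of_one_le_right (abs_nonneg u) hs).trans (by
      rwa [abs_mul, abs_of_pos (show (0 : ℝ) < Real.sqrt 3 by positivity)] at hu)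
  have hD := abs_le.1 (hle ((q.2.2.2 : ℝ) / 2) (abs_le.2 ⟨by linarith, by linarith⟩))
  have hC := abs_le.1 (hle ((q.2.2.1 : ℝ) + q.2.2.2 / 2) (abs_le.2 ⟨by linarith, by linarith⟩))
  have key : ∀ a : ℤ, -(4 * R) ≤ a → (a : ℝ) ≤ 4 * R → a ∈ Icc (-M) M := fun a h1 h2 => by
    refine ⟨?_, ?_⟩
    · exact_mod_cast (show ((-M : ℤ) : ℝ) ≤ a by push_cast; linarith)
    · exact_mod_cast h2.trans hM
  exact ⟨key _ (by linarith) (by linarith), key _ (by linarith) (by linarith),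
    key _ (by linarith) (by linarith), key _ (by linarith) (by linarith)⟩

theorem finite_normSet_inter (n : ℕ) [NeZero n] {K : Set SL(2, ℝ)} (hK : IsCompact K) :
    (normSet n ∩ K).Finite := by
  have hc : ∀ i j, Continuous fun g : SL(2, ℝ) => (g : Matrix (Fin 2) (Fin 2) ℝ) i j := fun i j =>
    (continuous_apply j).comp ((continuous_apply i).comp continuous_subtype_val)
  choose B hB using fun p : Fin 2 × Fin 2 =>
    hK.exists_bound_of_continuousOn (hc p.1 p.2).continuousOn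
  have hs : 0 < Real.sqrt n := Real.sqrt_pos.2 (Nat.cast_pos.2 (NeZero.pos n))
  refine Finite.of_finite_image (f := fun g : SL(2, ℝ) =>
    Real.sqrt n • (g : Matrix (Fin 2) (Fin 2) ℝ)) ?_
    fun g _ h _ e => Subtype.ext (smul_right_injective _ hs.ne' e)
  refine ((finite_bounded (Real.sqrt n * ∑ p, |B p|)).image hurMat).subset ?_
  rintro _ ⟨g, ⟨⟨q, hq⟩, hgK⟩, rfl⟩
  refine ⟨q, fun i j => ?_, hq⟩
  rw [hq, Matrix.smul_apply, smul_eq_mul, abs_mul, abs_of_pos hs]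
  refine mul_le_mul_of_nonneg_left ?_ hs.le
  exact ((hB (i, j) g hgK).trans (le_abs_self _)).trans
    (Finset.single_le_sum (f := fun p => |B p|) (fun p _ => abs_nonneg _) (Finset.mem_univ _))

instance discreteTopology_orderUnits : DiscreteTopology orderUnits := by
  obtain ⟨L, hL, hL1⟩ := exists_compact_mem_nhds (1 : SL(2, ℝ))
  have hfin := finite_normSet_inter 1 hL
  rw [normSet_one] at hfin
  refine discreteTopology_of_isOpen_singleton_one ?_
  convert (isOpen_interior (s := L)).sdiff (hfin.sdiff (t := {1})).isClosed |>.preimage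
    (continuous_subtype_val : Continuous ((↑) : orderUnits → SL(2, ℝ))) using 1
  refine Subset.antisymm (singleton_subset_iff.2
    ⟨mem_interior_iff_mem_nhds.2 hL1, fun h => h.2 rfl⟩) ?_
  rintro γ ⟨hγ, hne⟩
  by_contra h1
  exact hne ⟨⟨γ.2, interior_subset hγ⟩, fun e => h1 (Subtype.ext e)⟩

instance compactSpace_orderUnits : CompactSpace (SL(2, ℝ) ⧸ orderUnits) :=
  CocompactHurwitz.compactSpace_of_le unitGroup_le

/-- Left classes under the units. -/
def classSetoid (n : ℕ) : Setoid (normSet n) where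
  r g h := (h : SL(2, ℝ)) * (g : SL(2, ℝ))⁻¹ ∈ orderUnits
  iseqv :=
    ⟨fun g => by simp, fun {g h} hgh => by simpa using orderUnits.inv_mem hgh,
      fun {g h l} h1 h2 => by simpa [mul_assoc] using orderUnits.mul_mem h2 h1⟩

/-- The coordinates modulo `n` of the left ideal generated by an element. -/
def idealMod (n : ℕ) (g : normSet n) : Set (Fin 4 → ZMod n) :=
  {r | ∃ p q : Quad, hurMat q = hurMat p * (Real.sqrt n • ((g : SL(2, ℝ)) : Matrix _ _ ℝ)) ∧
    r = ![(q.1 : ZMod n), (q.2.1 : ZMod n), (q.2.2.1 : ZMod n), (q.2.2.2 : ZMod n)]}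

theorem rel_of_idealMod {n : ℕ} [NeZero n] {g h : normSet n} (e : idealMod n g = idealMod n h) :
    (h : SL(2, ℝ)) * (g : SL(2, ℝ))⁻¹ ∈ orderUnits := by
  obtain ⟨qh, hqh⟩ := mem_order.1 h.2
  have hmem : ![(qh.1 : ZMod n), (qh.2.1 : ZMod n), (qh.2.2.1 : ZMod n), (qh.2.2.2 : ZMod n)] ∈
      idealMod n g := by
    rw [e]
    exact ⟨(1, 0, 0, 0), qh, by rw [hurMat_one, Matrix.one_mul, hqh], rfl⟩
  obtain ⟨p, q, hq, hr⟩ := hmem
  have hr' := fun i => congrFun hr i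
  obtain ⟨d1, h1⟩ := (ZMod.intCast_eq_intCast_iff_dvd_sub _ _ n).1 (hr' 0).symm
  obtain ⟨d2, h2⟩ := (ZMod.intCast_eq_intCast_iff_dvd_sub _ _ n).1 (hr' 1).symm
  obtain ⟨d3, h3⟩ := (ZMod.intCast_eq_intCast_iff_dvd_sub _ _ n).1 (hr' 2).symm
  obtain ⟨d4, h4⟩ := (ZMod.intCast_eq_intCast_iff_dvd_sub _ _ n).1 (hr' 3).symm
  have hdiff : hurMat qh = hurMat q + ((n : ℤ) : ℝ) • hurMat (d1, d2, d3, d4) := by
    rw [Int.cast_smul_eq_zsmul]
    have : qh = q + ((n : ℤ) * d1, (n : ℤ) * d2, (n : ℤ) * d3, (n : ℤ) * d4) := by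
      refine Prod.ext ?_ (Prod.ext ?_ (Prod.ext ?_ ?_)) <;>
        simp only [Prod.fst_add, Prod.snd_add] <;> linarith
    rw [this, hurMat_add]
    congr 1
    rw [← Int.cast_smul_eq_zsmul ℝ]
    simp only [hurMat, smul_realQuat]
    push_cast
    congr 1 <;> ring
  set X := Real.sqrt n • ((g : SL(2, ℝ)) : Matrix (Fin 2) (Fin 2) ℝ) with hX
  have hXdet : X.det = n := det_sqrt_smul n g
  have hw : hurMat qh = (hurMat p + hurMat (d1, d2, d3, d4) * adjugate X) * X := by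
    rw [hdiff, hq, Matrix.add_mul, Matrix.mul_assoc (hurMat (d1, d2, d3, d4)),
      Matrix.adjugate_mul, hXdet]
    simp
  set w := hurMat p + hurMat (d1, d2, d3, d4) * adjugate X
  have hwO : w ∈ order := add_mem ⟨p, rfl⟩ (mul_mem ⟨_, rfl⟩ (adjugate_mem g.2))
  rw [hqh, hX, Matrix.mul_smul] at hw
  have hs : Real.sqrt n ≠ 0 := (Real.sqrt_pos.2 (Nat.cast_pos.2 (NeZero.pos n))).ne'
  have e1 := smul_right_injective _ hs hw
  refine mem_orderUnits.2 ?_
  rw [SpecialLinearGroup.coe_mul, e1, Matrix.mul_assoc, ← SpecialLinearGroup.coe_mul,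
    mul_inv_cancel, SpecialLinearGroup.coe_one, Matrix.mul_one]
  exact hwO

theorem finite_classes (n : ℕ) [NeZero n] : Finite (Quotient (classSetoid n)) := by
  classical
  refine Finite.of_surjective
    (fun v : range (idealMod n) => (⟦v.2.choose⟧ : Quotient (classSetoid n))) fun c =>
      ⟨⟨_, mem_range_self c.out⟩, ?_⟩
  refine (Quotient.sound ?_).trans c.out_eq
  exact rel_of_idealMod (mem_range_self (f := idealMod n) c.out).choose_spec

open Classical in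
/-- Representatives of the classes. -/
def reps (n : ℕ) : Finset SL(2, ℝ) :=
  if h : (range fun c : Quotient (classSetoid n) => (c.out : SL(2, ℝ))).Finite then h.toFinset
  else ∅

/-- A set of representatives for the left classes of `S`. -/
def IsTransversal (S : Set SL(2, ℝ)) (T : Finset SL(2, ℝ)) : Prop :=
  (∀ r ∈ T, r ∈ S) ∧ ∀ g ∈ S, ∃! r, r ∈ T ∧ g * r⁻¹ ∈ orderUnits

theorem isTransversal_reps (n : ℕ) [NeZero n] : IsTransversal (normSet n) (reps n) := by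
  haveI := finite_classes n
  have hfin := Set.finite_range fun c : Quotient (classSetoid n) => (c.out : SL(2, ℝ))
  rw [reps, dif_pos hfin]
  refine ⟨fun r hr => ?_, fun g hg => ?_⟩
  · obtain ⟨c, rfl⟩ := hfin.mem_toFinset.1 hr
    exact c.out.2
  · refine ⟨((⟦⟨g, hg⟩⟧ : Quotient (classSetoid n)).out : SL(2, ℝ)),
      ⟨hfin.mem_toFinset.2 ⟨_, rfl⟩, Quotient.mk_out (s := classSetoid n) ⟨g, hg⟩⟩, ?_⟩
    rintro r ⟨hr, hgr⟩
    obtain ⟨c, rfl⟩ := hfin.mem_toFinset.1 hr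
    have h : (⟦c.out⟧ : Quotient (classSetoid n)) = ⟦⟨g, hg⟩⟧ := Quotient.sound hgr
    rw [Quotient.out_eq] at h
    show ((c.out : normSet n) : SL(2, ℝ)) = _
    rw [h]

theorem sum_eq_of_transversal {M : Type*} [AddCommMonoid M] {S : Set SL(2, ℝ)}
    {T T' : Finset SL(2, ℝ)} (hT : IsTransversal S T) (hT' : IsTransversal S T')
    {F : SL(2, ℝ) → M} (hF : ∀ γ ∈ orderUnits, ∀ g ∈ S, F (γ * g) = F g) :
    ∑ r ∈ T, F r = ∑ r ∈ T', F r := by
  refine Finset.sum_bij (fun r hr => (hT'.2 r (hT.1 r hr)).choose)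
    (fun r hr => (hT'.2 r (hT.1 r hr)).choose_spec.1.1) (fun r hr s hs h => ?_)
    (fun r' hr' => ?_) fun r hr => ?_
  · have h1 := (hT'.2 r (hT.1 r hr)).choose_spec.1.2
    have h2 := (hT'.2 s (hT.1 s hs)).choose_spec.1.2
    rw [← h] at h2
    refine (hT.2 r (hT.1 r hr)).unique ⟨hr, by simp⟩ ⟨hs, ?_⟩
    simpa [mul_assoc] using orderUnits.mul_mem h1 (orderUnits.inv_mem h2)
  · obtain ⟨r, ⟨hr, h⟩, -⟩ := hT.2 r' (hT'.1 r' hr')
    refine ⟨r, hr, ((hT'.2 r (hT.1 r hr)).unique ⟨hr', ?_⟩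
      (hT'.2 r (hT.1 r hr)).choose_spec.1).symm⟩
    simpa using orderUnits.inv_mem h
  · obtain ⟨hmem, hu⟩ := (hT'.2 r (hT.1 r hr)).choose_spec.1
    have h := hF _ hu _ (hT'.1 _ hmem)
    rwa [inv_mul_cancel_right] at h

theorem sum_eq_card {M : Type*} [AddCommMonoid M] (m n : ℕ) [NeZero m] [NeZero n]
    {F : SL(2, ℝ) → M} (hF : ∀ γ ∈ orderUnits, ∀ g ∈ normSet (m * n), F (γ * g) = F g) :
    ∑ y ∈ reps n, ∑ s ∈ reps m, F (s * y) =
      ∑ x ∈ reps (m * n), Nat.card {y // y ∈ reps n ∧ x * y⁻¹ ∈ normSet m} • F x := by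
  classical
  haveI : NeZero (m * n) := ⟨mul_ne_zero (NeZero.ne m) (NeZero.ne n)⟩
  have hR := isTransversal_reps (m * n)
  have hm := isTransversal_reps m
  have hinner : ∀ y ∈ reps n, ∑ s ∈ reps m, F (s * y) =
      ∑ x ∈ (reps (m * n)).filter (fun x => x * y⁻¹ ∈ normSet m), F x := fun y hy => by
    have hyn := (isTransversal_reps n).1 y hy
    have e : ∑ s ∈ reps m, F (s * y) = ∑ x ∈ (reps m).image (· * y), F x :=
      (Finset.sum_image fun s _ t _ h => mul_right_cancel h).symm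
    rw [e]
    refine sum_eq_of_transversal (S := {g | g * y⁻¹ ∈ normSet m}) ⟨?_, fun g hg => ?_⟩
      ⟨fun x hx => (Finset.mem_filter.1 hx).2, fun g hg => ?_⟩ fun γ hγ g hg => ?_
    · intro x hx
      obtain ⟨s, hs, rfl⟩ := Finset.mem_image.1 hx
      show s * y * y⁻¹ ∈ normSet m
      rw [mul_inv_cancel_right]
      exact hm.1 s hs
    · obtain ⟨s, ⟨hs, hgs⟩, huniq⟩ := hm.2 _ hg
      refine ⟨s * y, ⟨Finset.mem_image_of_mem _ hs, by simpa [mul_assoc] using hgs⟩, ?_⟩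
      rintro x ⟨hx, hgx⟩
      obtain ⟨t, ht, rfl⟩ := Finset.mem_image.1 hx
      show t * y = s * y
      rw [huniq t ⟨ht, by simpa [mul_assoc] using hgx⟩]
    · have hgS : g ∈ normSet (m * n) := by simpa using mul_mem_normSet hg hyn
      obtain ⟨x, ⟨hx, hgx⟩, huniq⟩ := hR.2 g hgS
      refine ⟨x, ⟨Finset.mem_filter.2 ⟨hx, ?_⟩, hgx⟩, fun x' h => huniq x'
        ⟨(Finset.mem_filter.1 h.1).1, h.2⟩⟩
      simpa [mul_assoc] using units_mul_mem (orderUnits.inv_mem hgx) hg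
    · exact hF γ hγ g (by simpa using mul_mem_normSet hg hyn)
  rw [Finset.sum_congr rfl hinner, Finset.sum_comm' (t' := reps (m * n))
    (s' := fun x => (reps n).filter fun y => x * y⁻¹ ∈ normSet m)
    (fun y x => by simp only [Finset.mem_filter]; tauto)]
  refine Finset.sum_congr rfl fun x _ => ?_
  rw [Finset.sum_const, ← Nat.card_eq_finsetCard]
  congr 1
  exact Nat.card_congr (Equiv.subtypeEquivRight fun y => Finset.mem_filter)

/-- **The right divisor is unique.** -/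
theorem card_divisor {m n : ℕ} [NeZero n] {x : SL(2, ℝ)}
    (hG : ∀ g a b u v : Matrix (Fin 2) (Fin 2) ℝ, ∀ G : ℤ, g ∈ order → u ∈ order → v ∈ order →
      g = a * (Real.sqrt ((m * n : ℕ) : ℝ) • (x : Matrix (Fin 2) (Fin 2) ℝ)) + ((n : ℤ) : ℝ) • b →
      Real.sqrt ((m * n : ℕ) : ℝ) • (x : Matrix (Fin 2) (Fin 2) ℝ) = u * g →
      ((n : ℤ) : ℝ) • 1 = v * g → g.det = G → 0 < G →
      (∀ d : ℤ, d ∣ (n : ℤ) → d ∣ ((m * n : ℕ) : ℤ) → d ∣ G) → G ∣ ((m * n : ℕ) : ℤ) →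
      G ∣ (n : ℤ) ^ 2 → G = n)
    (hx : x ∈ normSet (m * n)) :
    Nat.card {y // y ∈ reps n ∧ x * y⁻¹ ∈ normSet m} = 1 := by
  set X := Real.sqrt ((m * n : ℕ) : ℝ) • (x : Matrix (Fin 2) (Fin 2) ℝ) with hXdef
  obtain ⟨g, a, b, u, v, G, ⟨hgO, ha, hb, hu, hv⟩, ⟨hgab, hXu, hnv⟩, hGd, hGpos, hdvd, h1, h2⟩ :=
    exists_gcd (x := X) hx (n := (n : ℤ)) (N := ((m * n : ℕ) : ℤ))
      (by exact_mod_cast NeZero.pos n) (by rw [hXdef, det_sqrt_smul]; simp)
  obtain rfl := hG g a b u v G hgO hu hv hgab hXu hnv hGd hGpos hdvd h1 h2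
  obtain ⟨y0, hy0, hy0g⟩ := exists_normSet hgO (n := n) (by simpa using hGd)
  obtain ⟨y, ⟨hy, hy0y⟩, huniq⟩ := (isTransversal_reps n).2 y0 hy0
  have hs : Real.sqrt n ≠ 0 := (Real.sqrt_pos.2 (Nat.cast_pos.2 (NeZero.pos n))).ne'
  have hxy0 : x * y0⁻¹ ∈ normSet m := by
    show Real.sqrt m • ((x * y0⁻¹ : SL(2, ℝ)) : Matrix (Fin 2) (Fin 2) ℝ) ∈ order
    have e : u * (y0 : Matrix (Fin 2) (Fin 2) ℝ) =
        Real.sqrt m • (x : Matrix (Fin 2) (Fin 2) ℝ) := by
      refine smul_right_injective _ hs (?_ : Real.sqrt n • _ = Real.sqrt n • _)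
      rw [← Matrix.mul_smul, hy0g, ← hXu, hXdef, smul_smul, ← Real.sqrt_mul (Nat.cast_nonneg n),
        Nat.cast_mul, mul_comm (m : ℝ)]
    rw [SpecialLinearGroup.coe_mul, ← Matrix.smul_mul, ← e, Matrix.mul_assoc,
      ← SpecialLinearGroup.coe_mul, mul_inv_cancel, SpecialLinearGroup.coe_one, Matrix.mul_one]
    exact hu
  rw [Nat.card_eq_one_iff_exists]
  refine ⟨⟨y, hy, ?_⟩, fun z => ?_⟩
  · simpa [mul_assoc] using mul_units_mem hxy0 hy0y
  obtain ⟨z, hz, hxz⟩ := z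
  refine Subtype.ext (huniq z ⟨hz, ?_⟩)
  set Z := Real.sqrt n • (z : Matrix (Fin 2) (Fin 2) ℝ) with hZdef
  have hZO : Z ∈ order := (isTransversal_reps n).1 z hz
  have hXZ : X = (Real.sqrt m • ((x * z⁻¹ : SL(2, ℝ)) : Matrix (Fin 2) (Fin 2) ℝ)) * Z := by
    rw [hZdef, smul_mul_smul_comm, ← SpecialLinearGroup.coe_mul, inv_mul_cancel_right,
      ← Real.sqrt_mul (Nat.cast_nonneg m), ← Nat.cast_mul]
  have hZd : Z.det = n := by rw [hZdef, det_sqrt_smul]
  obtain ⟨w, hw, -, hgw⟩ := eq_mul_of_common ha hb hxz (adjugate_mem hZO) hgab hXZ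
    (by rw [Matrix.adjugate_mul, hZd]; simp) (by rw [hGd, hZd]; simp)
    (by rw [hZd]; exact_mod_cast NeZero.ne n)
  refine mem_orderUnits.2 ?_
  rw [← hy0g, hZdef, Matrix.mul_smul] at hgw
  rw [SpecialLinearGroup.coe_mul, smul_right_injective _ hs hgw, Matrix.mul_assoc,
    ← SpecialLinearGroup.coe_mul, mul_inv_cancel, SpecialLinearGroup.coe_one, Matrix.mul_one]
  exact hw

theorem card_divisor_coprime {m n : ℕ} [NeZero n] (hmn : m.Coprime n) {x : SL(2, ℝ)}
    (hx : x ∈ normSet (m * n)) : Nat.card {y // y ∈ reps n ∧ x * y⁻¹ ∈ normSet m} = 1 := by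
  refine card_divisor (fun g a b u v G _ _ _ _ _ _ _ hpos hdvd h1 h2 => ?_) hx
  refine Int.dvd_antisymm hpos.le (by positivity) ?_ (hdvd _ dvd_rfl (by push_cast; simp))
  lift G to ℕ using hpos.le
  norm_cast at h1 h2 ⊢
  have h := Nat.dvd_gcd h1 h2
  rwa [sq, Nat.gcd_mul_right, Nat.Coprime.gcd_eq_one hmn, one_mul] at h

theorem card_divisor_prime {p r : ℕ} (hp : p.Prime) {x : SL(2, ℝ)}
    (hx : x ∈ normSet (p ^ (r + 1) * p)) (hold : x ∉ normSet (p ^ r)) :
    haveI : NeZero p := ⟨hp.ne_zero⟩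
    Nat.card {y // y ∈ reps p ∧ x * y⁻¹ ∈ normSet (p ^ (r + 1))} = 1 := by
  haveI : NeZero p := ⟨hp.ne_zero⟩
  refine card_divisor (fun g a b u v G _ hu hv _ hXu hnv hGd hpos hdvd h1 h2 => ?_) hx
  lift G to ℕ using hpos.le
  norm_cast at h2
  have hpG : p ∣ G := by exact_mod_cast hdvd p dvd_rfl (by push_cast; simp)
  obtain ⟨i, hi, rfl⟩ := (Nat.dvd_prime_pow hp).1 h2
  interval_cases i
  · exact absurd (Nat.le_of_dvd one_pos (by simpa using hpG)) (by have := hp.two_le; omega)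
  · simp
  exfalso
  refine hold ?_
  push_cast at hGd hnv hXu
  have hv1 : v.det = 1 := by
    have e := congrArg Matrix.det hnv
    rw [det_mul, det_smul, det_one, mul_one, hGd, Fintype.card_fin] at e
    exact mul_right_cancel₀ (pow_ne_zero 2 (Nat.cast_ne_zero.2 hp.ne_zero))
      (e.symm.trans (one_mul _).symm)
  have hg : g = (p : ℝ) • adjugate v := by
    have e := congrArg (adjugate v * ·) hnv
    simp only [Matrix.mul_smul, Matrix.mul_one, ← Matrix.mul_assoc, Matrix.adjugate_mul, hv1,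
      one_smul, Matrix.one_mul] at e
    exact e.symm
  show Real.sqrt ((p ^ r : ℕ) : ℝ) • (x : Matrix (Fin 2) (Fin 2) ℝ) ∈ order
  have hp0 : (p : ℝ) ≠ 0 := Nat.cast_ne_zero.2 hp.ne_zero
  rw [hg, Matrix.mul_smul, show (p : ℝ) ^ (r + 1) * p = (p : ℝ) ^ r * p ^ 2 by ring,
    Real.sqrt_mul (by positivity), Real.sqrt_sq (Nat.cast_nonneg p), mul_comm (Real.sqrt _),
    mul_smul] at hXu
  rw [Nat.cast_pow, smul_right_injective _ hp0 hXu]
  exact mul_mem hu (adjugate_mem hv)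

theorem exists_norm_prime {p : ℕ} (hp : p.Prime) : (normSet p).Nonempty := by
  haveI : Fact p.Prime := ⟨hp⟩
  haveI : NeZero p := ⟨hp.ne_zero⟩
  obtain ⟨a, b, hab⟩ := ZMod.sq_add_sq p (3 : ZMod p)
  obtain ⟨a, rfl⟩ := ZMod.intCast_surjective a
  obtain ⟨b, rfl⟩ := ZMod.intCast_surjective b
  have hdN : (p : ℤ) ∣ a ^ 2 + b ^ 2 - 3 := by
    rw [← ZMod.intCast_zmod_eq_zero_iff_dvd]
    push_cast
    rw [hab, sub_self]
  obtain ⟨g, c, d, u, v, G, ⟨hgO, -, -, hu, hv⟩, ⟨-, hxu, hnv⟩, hGd, hpos, hdvd, -, h2⟩ :=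
    exists_gcd (x := hurMat (a, b, 1, 0)) ⟨_, rfl⟩ (n := (p : ℤ)) (N := a ^ 2 + b ^ 2 - 3)
      (by exact_mod_cast hp.pos) (by rw [det_hurMat]; congr 1; simp [hurNorm])
  lift G to ℕ using hpos.le
  have hpG : p ∣ G := by exact_mod_cast hdvd p dvd_rfl hdN
  norm_cast at h2
  obtain ⟨i, hi, rfl⟩ := (Nat.dvd_prime_pow hp).1 h2
  interval_cases i
  · exact absurd (Nat.le_of_dvd one_pos (by simpa using hpG)) (by have := hp.two_le; omega)
  · exact ⟨_, (exists_normSet hgO (n := p) (by simpa using hGd)).choose_spec.1⟩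
  exfalso
  push_cast at hGd hnv
  have hv1 : v.det = 1 := by
    have e := congrArg Matrix.det hnv
    rw [det_mul, det_smul, det_one, mul_one, hGd, Fintype.card_fin] at e
    exact mul_right_cancel₀ (pow_ne_zero 2 (Nat.cast_ne_zero.2 hp.ne_zero))
      (e.symm.trans (one_mul _).symm)
  obtain ⟨q, hq⟩ := mem_order.1 (mul_mem hu (adjugate_mem hv))
  have hg : g = (p : ℝ) • adjugate v := by
    have e := congrArg (adjugate v * ·) hnv
    simp only [Matrix.mul_smul, Matrix.mul_one, ← Matrix.mul_assoc, Matrix.adjugate_mul, hv1,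
      one_smul, Matrix.one_mul] at e
    exact e.symm
  rw [hg, Matrix.mul_smul, ← hq] at hxu
  have e : ((a, b, 1, 0) : Quad) = ((p : ℤ) * q.1, (p : ℤ) * q.2.1, (p : ℤ) * q.2.2.1,
      (p : ℤ) * q.2.2.2) := hurMat_injective (by
    rw [hxu]
    simp only [hurMat, smul_realQuat]
    push_cast
    congr 1 <;> ring)
  have e1 : (1 : ℤ) = p * q.2.2.1 := congrArg (fun t : Quad => t.2.2.1) e
  have e2 : (p : ℤ) = 1 := Int.eq_one_of_dvd_one (Int.natCast_nonneg p) ⟨q.2.2.1, e1⟩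
  exact hp.one_lt.ne' (by exact_mod_cast e2)

/-- **Every positive integer is a norm.** -/
theorem normSet_nonempty (n : ℕ) (hn : n ≠ 0) : (normSet n).Nonempty := by
  induction n using induction_on_primes with
  | zero => exact absurd rfl hn
  | one => exact ⟨1, by rw [normSet_one]; exact orderUnits.one_mem⟩
  | prime_mul p a hp ih =>
    obtain ⟨g, hg⟩ := exists_norm_prime hp
    obtain ⟨h, hh⟩ := ih (fun h0 => hn (by simp [h0]))
    exact ⟨g * h, mul_mem_normSet hg hh⟩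

theorem reps_nonempty (n : ℕ) [NeZero n] : (reps n).Nonempty := by
  obtain ⟨g, hg⟩ := normSet_nonempty n (NeZero.ne n)
  obtain ⟨r, ⟨hr, -⟩, -⟩ := (isTransversal_reps n).2 g hg
  exact ⟨r, hr⟩

end FA.QuaternionHecke

end
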