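import Fermat.Agent.QuaternionHecke.Hecke
import Fermat.Agent.CocompactGaussBonnet.Formula
import Mathlib.Analysis.InnerProductSpace.JointEigenspace

/-!
# Self-adjointness and eigenforms

Both sides of `⟨T f, g⟩ = ⟨f, T g⟩` are sums over the elements of norm `n` of the integral of
`ψ z ψ (s z) y ^ k conj (f ∣ s) g`, so the operators are symmetric, and commuting symmetric
operators have a common eigenbasis.
-/

set_option autoImplicit false
set_option linter.unusedSectionVars false
set_option linter.style.haveILetI false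

noncomputable section

open MeasureTheory Set Filter Topology Complex
open UpperHalfPlane hiding I
open FA.CocompactForms FA.CocompactDegree FA.CocompactGaussBonnet
open scoped MatrixGroups Manifold Real ComplexConjugate

namespace FA.QuaternionHecke

theorem finite_normSet_returns (n : ℕ) [NeZero n] {K L : Set ℍ} (hK : IsCompact K)
    (hL : IsCompact L) : {s : SL(2, ℝ) | s ∈ normSet n ∧ ∃ z ∈ K, s • z ∈ L}.Finite := by
  have hC : IsCompact (Prod.fst '' ((fun p : SL(2, ℝ) × ℍ => (p.1 • p.2, p.2)) ⁻¹' (L ×ˢ K))) :=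
    (ProperSMul.isProperMap_smul_pair.isCompact_preimage (hL.prod hK)).image continuous_fst
  exact (finite_normSet_inter n hC).subset fun s ⟨hs, z, hz, hsz⟩ =>
    ⟨hs, (s, z), ⟨hsz, hz⟩, rfl⟩

theorem mul_pow_slash {k : ℕ} (s : SL(2, ℝ)) (f g : ℍ → ℂ) (w : ℍ) :
    (s⁻¹ • w).im ^ k • (conj (slash (k : ℤ) s f (s⁻¹ • w)) * g (s⁻¹ • w)) =
      w.im ^ k • (conj (f w) * slash (k : ℤ) s⁻¹ g w) := by
  have hj : jac s (s⁻¹ • w : ℍ) = (jac s⁻¹ w)⁻¹ :=
    eq_inv_of_mul_eq_one_left (by rw [← jac_mul, mul_inv_cancel]; simp [jac])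
  have hne := jac_ne_zero s⁻¹ w.im_ne_zero
  have hne' : conj (jac s⁻¹ (w : ℂ)) ≠ 0 := (map_ne_zero _).2 hne
  simp only [slash_apply, smul_inv_smul, hj, zpow_neg, zpow_natCast, inv_pow, inv_inv, map_mul,
    map_pow, im_smul_sl, Complex.real_smul, ofReal_pow, ofReal_div]
  rw [← ofReal_pow ‖jac s⁻¹ w‖, ← normSq_eq_norm_sq, ← mul_conj]
  simp only [div_pow, mul_pow]
  field_simp

variable {ψ : ℂ → ℝ} {G : Finset orderUnits} {k : ℕ} {f g : ℍ → ℂ}

theorem exists_fold (h : IsPartition orderUnits ψ G) (n : ℕ) [NeZero n] :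
    ∃ S : Finset SL(2, ℝ), (∀ s ∈ S, s⁻¹ ∈ S) ∧
      ∀ (k : ℤ) (f : ℍ → ℂ), IsForm orderUnits k f → ∀ z : ℍ, ψ z ≠ 0 →
        heckeFun k n f z = ∑ s ∈ S, ψ ((s • z : ℍ) : ℂ) • slash k s f z := by
  classical
  set K : Set ℍ := ((↑) : ℍ → ℂ) ⁻¹' tsupport ψ
  have hK : IsCompact K := UpperHalfPlane.isEmbedding_coe.isInducing.isCompact_preimage'
    h.compact.isCompact (h.subset.trans_eq UpperHalfPlane.range_coe.symm)
  set S := (finite_normSet_returns n hK hK).toFinset with hS
  have hmem : ∀ s, s ∈ S ↔ s ∈ normSet n ∧ ∃ z ∈ K, s • z ∈ K :=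
    fun s => Set.Finite.mem_toFinset _
  have hR := isTransversal_reps n
  refine ⟨S, fun s hs => ?_, fun k f hf z hz => ?_⟩
  · obtain ⟨hsn, z, hz, hsz⟩ := (hmem s).1 hs
    exact (hmem _).2 ⟨inv_mem_normSet hsn, s • z, hsz, by rwa [inv_smul_smul]⟩
  choose rep hrep hrepu using fun g (hg : g ∈ normSet n) => hR.2 g hg
  set q : SL(2, ℝ) → SL(2, ℝ) := fun g => if hg : g ∈ normSet n then rep g hg else 1
  have hmap : ∀ s ∈ S, q s ∈ reps n := fun s hs => by
    have hsn := ((hmem s).1 hs).1
    simp only [q, dif_pos hsn]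
    exact (hrep s hsn).1
  rw [heckeFun_apply, Finset.sum_apply]
  refine Eq.trans ?_ (Finset.sum_fiberwise_of_maps_to hmap _)
  refine Finset.sum_congr rfl fun r hr => ?_
  have hfib : ∀ s ∈ S.filter (fun s => q s = r), s * r⁻¹ ∈ orderUnits := fun s hs => by
    obtain ⟨hs, hq⟩ := Finset.mem_filter.1 hs
    have hsn := ((hmem s).1 hs).1
    simp only [q, dif_pos hsn] at hq
    rw [← hq]
    exact (hrep s hsn).2
  have hone : ∑ s ∈ S.filter (fun s => q s = r), ψ ((s • z : ℍ) : ℂ) = 1 := by
    refine HasSum.unique ?_ (h.hasSum (r • z))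
    set T : Finset orderUnits :=
      (S.filter fun s => q s = r).attach.image fun s => ⟨s.1 * r⁻¹, hfib s.1 s.2⟩
    have e : ∑ γ ∈ T, ψ ((γ • r • z : ℍ) : ℂ) =
        ∑ s ∈ S.filter (fun s => q s = r), ψ ((s • z : ℍ) : ℂ) := by
      rw [Finset.sum_image fun a _ b _ hab => Subtype.ext
        (mul_right_cancel (congrArg Subtype.val hab)),
        ← Finset.sum_attach (S.filter fun s => q s = r) fun s => ψ ((s • z : ℍ) : ℂ)]
      refine Finset.sum_congr rfl fun s _ => ?_
      rw [Subgroup.smul_def, ← mul_smul, inv_mul_cancel_right]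
    rw [← e]
    refine hasSum_sum_of_ne_finset_zero fun γ hγ => ?_
    by_contra hne
    refine hγ (Finset.mem_image.2 ⟨⟨(γ : SL(2, ℝ)) * r, ?_⟩, Finset.mem_attach _ _,
      Subtype.ext (mul_inv_cancel_right _ _)⟩)
    have hγn : (γ : SL(2, ℝ)) * r ∈ normSet n := units_mul_mem γ.2 (hR.1 r hr)
    refine Finset.mem_filter.2 ⟨(hmem _).2 ⟨hγn, z, subset_tsupport _ hz, ?_⟩, ?_⟩
    · rw [mul_smul]
      exact subset_tsupport _ hne
    · simp only [q, dif_pos hγn]
      exact (hrepu _ hγn r ⟨hr, by simp⟩).symm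
  calc slash k r f z =
        (∑ s ∈ S.filter (fun s => q s = r), ψ ((s • z : ℍ) : ℂ)) • slash k r f z := by
          rw [hone, one_smul]
    _ = ∑ s ∈ S.filter (fun s => q s = r), ψ ((s • z : ℍ) : ℂ) • slash k r f z := Finset.sum_smul
    _ = _ := Finset.sum_congr rfl fun s hs => by
      rw [← slash_units_mul hf (hfib s hs) r, inv_mul_cancel_right]

/-- **The operators are self-adjoint.** -/
theorem petInner_hecke (h : IsPartition orderUnits ψ G) (n : ℕ) [NeZero n]
    (hf : IsForm orderUnits (k : ℤ) f) (hg : IsForm orderUnits (k : ℤ) g) :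
    petInner ψ k (heckeFun (k : ℤ) n f) g = petInner ψ k f (heckeFun (k : ℤ) n g) := by
  obtain ⟨S, hinv, hfold⟩ := exists_fold h n
  set A : SL(2, ℝ) → ℍ → ℂ := fun s z =>
    ψ z • (ψ ((s • z : ℍ) : ℂ) • (z.im ^ k • (conj (slash (k : ℤ) s f z) * g z)))
  set B : SL(2, ℝ) → ℍ → ℂ := fun s z =>
    ψ z • (ψ ((s • z : ℍ) : ℂ) • (z.im ^ k • (conj (f z) * slash (k : ℤ) s g z)))
  have hs : ∀ (s : SL(2, ℝ)) {u : ℍ → ℂ}, MDiff u → Continuous (slash (k : ℤ) s u) :=
    fun s u hu => (mdiff_slash _ s hu).continuous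
  have hA : ∀ s, Integrable (A s) := fun s => integrable_partition_mul h
    ((h.contDiff.continuous.comp
        (UpperHalfPlane.continuous_coe.comp (continuous_const_smul s))).smul
      ((UpperHalfPlane.continuous_im.pow k).smul
        ((Complex.continuous_conj.comp (hs s hf.1)).mul hg.1.continuous)))
  have hB : ∀ s, Integrable (B s) := fun s => integrable_partition_mul h
    ((h.contDiff.continuous.comp
        (UpperHalfPlane.continuous_coe.comp (continuous_const_smul s))).smul
      ((UpperHalfPlane.continuous_im.pow k).smul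
        ((Complex.continuous_conj.comp hf.1.continuous).mul (hs s hg.1))))
  have hL : petInner ψ k (heckeFun (k : ℤ) n f) g = ∑ s ∈ S, ∫ z, A s z := by
    rw [← integral_finsetSum _ fun s _ => hA s]
    refine integral_congr_ae (.of_forall fun z => ?_)
    rcases eq_or_ne (ψ z) 0 with h0 | h0
    · simp [A, h0]
    dsimp only
    rw [hfold _ f hf z h0, map_sum, Finset.sum_mul, Finset.smul_sum]
    refine Finset.sum_congr rfl fun s _ => ?_
    simp only [A, Complex.real_smul, map_mul, conj_ofReal]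
    push_cast
    ring
  have hR : petInner ψ k f (heckeFun (k : ℤ) n g) = ∑ s ∈ S, ∫ z, B s z := by
    rw [← integral_finsetSum _ fun s _ => hB s]
    refine integral_congr_ae (.of_forall fun z => ?_)
    rcases eq_or_ne (ψ z) 0 with h0 | h0
    · simp [B, h0]
    dsimp only
    rw [hfold _ g hg z h0, Finset.mul_sum, Finset.smul_sum]
    refine Finset.sum_congr rfl fun s _ => ?_
    simp only [B, Complex.real_smul]
    push_cast
    ring
  rw [hL, hR]
  refine Finset.sum_nbij' (·⁻¹) (·⁻¹) hinv hinv (fun s _ => inv_inv s) (fun s _ => inv_inv s)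
    fun s _ => ?_
  rw [← (measurePreserving_sl s⁻¹).integral_comp (measurableEmbedding_sl _)]
  refine integral_congr_ae (.of_forall fun w => ?_)
  simp only [A, B, smul_inv_smul, mul_pow_slash]
  rw [smul_comm]

theorem petInner_symm (ψ : ℂ → ℝ) (k : ℕ) (f g : ℍ → ℂ) :
    conj (petInner ψ k g f) = petInner ψ k f g := by
  rw [petInner, petInner, ← integral_conj]
  refine integral_congr_ae (.of_forall fun z => ?_)
  simp [Complex.real_smul, conj_ofReal, mul_comm]

theorem pet_slash (k : ℤ) (s : SL(2, ℝ)) (f : ℍ → ℂ) (z : ℍ) :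
    pet k (slash k s f) z = pet k f (s • z) := by
  rw [pet, pet, slash_apply, sqrt_im_smul, norm_mul, norm_zpow, div_zpow, zpow_neg]
  field_simp

/-- **The trivial bound on eigenvalues.** -/
theorem norm_eigenvalue_le {k : ℤ} {n : ℕ} [NeZero n] {f : ℍ → ℂ} (hf : IsForm orderUnits k f)
    (hf0 : f ≠ 0) {c : ℂ} (he : heckeFun k n f = c • f) : ‖c‖ ≤ (reps n).card := by
  obtain ⟨z₀, hz₀⟩ := exists_max_pet hf
  have hpos : 0 < pet k f z₀ := by
    refine lt_of_le_of_ne (pet_nonneg _ _ _) fun h0 => hf0 (funext fun z =>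
      eq_zero_of_pet (k := k) ?_)
    exact le_antisymm ((hz₀ z).trans_eq h0.symm) (pet_nonneg _ _ _)
  refine le_of_mul_le_mul_right ?_ hpos
  calc ‖c‖ * pet k f z₀ = pet k (heckeFun k n f) z₀ := by
        rw [he, pet, pet, Pi.smul_apply, norm_smul]; ring
    _ ≤ ∑ r ∈ reps n, pet k (slash k r f) z₀ := by
        simp only [pet, heckeFun_apply, Finset.sum_apply, ← Finset.mul_sum]
        exact mul_le_mul_of_nonneg_left (norm_sum_le _ _)
          (zpow_nonneg (Real.sqrt_nonneg _) _)
    _ ≤ ∑ _r ∈ reps n, pet k f z₀ := Finset.sum_le_sum fun r _ => by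
        rw [pet_slash]
        exact hz₀ _
    _ = _ := by rw [Finset.sum_const, nsmul_eq_mul]

theorem finiteDimensional_forms (k : ℤ) : FiniteDimensional ℂ (forms orderUnits k) :=
  ((exists_finrank_le (Γ := orderUnits)).choose_spec k).1

/-- **A basis of simultaneous eigenforms.** -/
theorem exists_eigenbasis (k : ℕ) :
    ∃ (b : Module.Basis (Fin (Module.finrank ℂ (forms orderUnits (k : ℤ)))) ℂ
        (forms orderUnits (k : ℤ)))
      (c : Fin (Module.finrank ℂ (forms orderUnits (k : ℤ))) → ℕ+ → ℝ),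
      ∀ i n, hecke (k : ℤ) n (b i) = (c i n : ℂ) • b i := by
  haveI := finiteDimensional_forms (k : ℤ)
  obtain ⟨ψ, G, h⟩ := exists_partition orderUnits
  letI core : InnerProductSpace.Core ℂ (forms orderUnits (k : ℤ)) :=
    { inner := fun f g => petInner ψ k f g
      conj_inner_symm := fun f g => petInner_symm ψ k f g
      re_inner_nonneg := fun f => (petInner_self h f.2.1).1
      add_left := fun f g u => by
        show petInner ψ k _ _ = petInner ψ k _ _ + petInner ψ k _ _
        rw [petInner, petInner, petInner, ← integral_add (integrable_petInner h f.2.1 u.2.1)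
          (integrable_petInner h g.2.1 u.2.1)]
        refine integral_congr_ae (.of_forall fun z => ?_)
        simp [Complex.real_smul]
        ring
      smul_left := fun f g r => by
        show petInner ψ k _ _ = conj r * petInner ψ k _ _
        rw [petInner, petInner, ← integral_const_mul]
        refine integral_congr_ae (.of_forall fun z => ?_)
        simp [Complex.real_smul]
        ring
      definite := fun f h0 => Subtype.ext ((petInner_self h f.2.1).2 h0) }
  letI : NormedAddCommGroup (forms orderUnits (k : ℤ)) := core.toNormedAddCommGroup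
  letI : InnerProductSpace ℂ (forms orderUnits (k : ℤ)) := InnerProductSpace.ofCore core.toCore
  have hT : ∀ n : ℕ+, (hecke (k : ℤ) n).IsSymmetric := fun n f g => by
    haveI : NeZero (n : ℕ) := ⟨n.ne_zero⟩
    exact petInner_hecke h n f.2 g.2
  classical
  have hint := LinearMap.IsSymmetric.directSum_isInternal_of_pairwise_commute hT
    fun m n _ => hecke_commute (k : ℤ) m n
  set bs := hint.collectedBasis fun χ => Module.finBasis ℂ
    (⨅ n, Module.End.eigenspace (hecke (k : ℤ) n) (χ n) :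
      Submodule ℂ (forms orderUnits (k : ℤ)))
  haveI := Module.Finite.finite_basis bs
  haveI := Fintype.ofFinite (Σ χ : ℕ+ → ℂ, Fin (Module.finrank ℂ
    (⨅ n, Module.End.eigenspace (hecke (k : ℤ) n) (χ n) :
      Submodule ℂ (forms orderUnits (k : ℤ)))))
  set e := (Fintype.equivFinOfCardEq (Module.finrank_eq_card_basis bs).symm)
  refine ⟨bs.reindex e, fun i n => ((e.symm i).1 n).re, fun i n => ?_⟩
  have hmem := (Submodule.mem_iInf _).1 (hint.collectedBasis_mem
    (fun χ => Module.finBasis ℂ (⨅ n, Module.End.eigenspace (hecke (k : ℤ) n) (χ n) :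
      Submodule ℂ (forms orderUnits (k : ℤ)))) (e.symm i)) n
  rw [Module.Basis.reindex_apply]
  have hv : Module.End.HasEigenvector (hecke (k : ℤ) n) ((e.symm i).1 n) (bs (e.symm i)) :=
    ⟨hmem, bs.ne_zero _⟩
  have hreal := (hT n).conj_eigenvalue_eq_self (Module.End.hasEigenvalue_of_hasEigenvector hv)
  rw [show ((((e.symm i).1 n).re : ℝ) : ℂ) = (e.symm i).1 n from
    Complex.conj_eq_iff_re.1 hreal]
  exact hv.apply_eq_smul

end FA.QuaternionHecke

end
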